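import Mathlib
import Fermat.Agent.Lib.FunctionField.Defs

/-!
# Item 68 (S24), block (C), part 2: the norm as the product over a full family of embeddings

`F / K(y)` finite, char. 0.  If `τ g : F →+* Ω`, `g ∈ Γ`, are pairwise distinct, agree on `K` and at
`y`, and `|Γ| = [F : K(y)]`, then `τ g₀ (N b) = ∏ g, τ g b` for the norm `N = N_{F/K(y)}`.
-/

set_option autoImplicit false

open IntermediateField Polynomial

namespace Fermat.Agent.Lib.ModC

variable {K F : Type*} [Field K] [Field F] [Algebra K F]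

/-- two ring homs that agree on `K` and at `y` agree on `K(y)` -/
theorem eq_on_adjoin_simple {Ω : Type*} [Field Ω] (σ σ' : F →+* Ω) {y : F}
    (hK : ∀ c : K, σ (algebraMap K F c) = σ' (algebraMap K F c)) (hy : σ y = σ' y)
    (u : F) (hu : u ∈ K⟮y⟯) : σ u = σ' u := by
  rw [IntermediateField.mem_adjoin_simple_iff] at hu
  obtain ⟨P, Q, rfl⟩ := hu
  have h : ∀ R : K[X], σ (aeval y R) = σ' (aeval y R) := by
    intro R
    induction R using Polynomial.induction_on with
    | C a => simpa using hK a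
    | add p q hp hq => rw [map_add, map_add, map_add, hp, hq]
    | monomial n a h =>
      have e : aeval y (C a * X ^ (n + 1)) = aeval y (C a * X ^ n) * y := by
        rw [pow_succ, ← mul_assoc, map_mul, aeval_X]
      rw [e, map_mul σ, map_mul σ', h, hy]
  rw [map_div₀, map_div₀, h P, h Q]

variable [CharZero K]

theorem norm_eq_prod_of_card {y : F} [FiniteDimensional K⟮y⟯ F]
    {Ω : Type*} [Field Ω] {Γ : Type*} [Fintype Γ] (τ : Γ → F →+* Ω)
    (hτ_inj : Function.Injective τ)
    (hτ_K : ∀ (g g' : Γ) (c : K), τ g (algebraMap K F c) = τ g' (algebraMap K F c))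
    (hτ_y : ∀ g g' : Γ, τ g y = τ g' y)
    (hcard : Fintype.card Γ = Module.finrank K⟮y⟯ F) (g₀ : Γ) (b : F) :
    τ g₀ ((Algebra.norm K⟮y⟯ b : K⟮y⟯) : F) = ∏ g, τ g b := by
  classical
  have : CharZero K⟮y⟯ := charZero_of_injective_algebraMap (algebraMap K K⟮y⟯).injective
  let algE : Algebra K⟮y⟯ (AlgebraicClosure Ω) :=
    ((algebraMap Ω (AlgebraicClosure Ω)).comp ((τ g₀).comp (algebraMap K⟮y⟯ F))).toAlgebra
  -- the algebra homs
  let σ : Γ → (F →ₐ[K⟮y⟯] (AlgebraicClosure Ω)) := fun g =>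
    { toRingHom := (algebraMap Ω (AlgebraicClosure Ω)).comp (τ g)
      commutes' := fun u => by
        show algebraMap Ω (AlgebraicClosure Ω) (τ g (u : F))
          = algebraMap Ω (AlgebraicClosure Ω) (τ g₀ (u : F))
        rw [eq_on_adjoin_simple (τ g) (τ g₀) (hτ_K g g₀) (hτ_y g g₀) u u.2] }
  have hσ_inj : Function.Injective σ := by
    intro g g' h
    apply hτ_inj
    ext f
    have := congrArg (fun s : F →ₐ[K⟮y⟯] (AlgebraicClosure Ω) => s f) h
    exact (algebraMap Ω (AlgebraicClosure Ω)).injective this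
  have hσ_bij : Function.Bijective σ := by
    rw [Fintype.bijective_iff_injective_and_card]
    refine ⟨hσ_inj, ?_⟩
    rw [hcard, AlgHom.card]
  have h1 := Algebra.norm_eq_prod_embeddings K⟮y⟯ (AlgebraicClosure Ω) b
  have h2 : ∏ s : F →ₐ[K⟮y⟯] (AlgebraicClosure Ω), s b = ∏ g, σ g b :=
    (Fintype.prod_bijective σ hσ_bij _ _ (fun _ => rfl)).symm
  rw [h2] at h1
  have h3 : ∏ g, σ g b = algebraMap Ω (AlgebraicClosure Ω) (∏ g, τ g b) := by
    rw [map_prod]; rfl
  rw [h3] at h1
  exact (algebraMap Ω (AlgebraicClosure Ω)).injective h1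

end Fermat.Agent.Lib.ModC
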