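import Mathlib
import Fermat.Agent.Lib.ModC.NormEmb
import Fermat.Prelude.Def_AlgebraicCurve_CanonicalDivisor

/-!
# Item 68 (S24), block (C): assembly helpers (pure algebra)

* `card_le_finrank_of_injective` (H2): a family of pairwise distinct embeddings of `F` that agree
  on `K` and at `y` has at most `[F : K(y)]` members.
* `card_poles_eq_card_zeros_inv` (H3): the poles of `x` are the zeros of `x⁻¹`.
-/

set_option autoImplicit false

open IntermediateField AlgebraicCurve

namespace Fermat.Agent.Lib.ModC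

variable {K F : Type*} [Field K] [Field F] [Algebra K F]

/-- H2. lower bound for the degree from distinct embeddings. -/
theorem card_le_finrank_of_injective {y : F} [FiniteDimensional K⟮y⟯ F]
    {Ω : Type*} [Field Ω] {Γ : Type*} [Fintype Γ] (τ : Γ → F →+* Ω)
    (hτ_inj : Function.Injective τ)
    (hτ_K : ∀ (g g' : Γ) (c : K), τ g (algebraMap K F c) = τ g' (algebraMap K F c))
    (hτ_y : ∀ g g' : Γ, τ g y = τ g' y) :
    Fintype.card Γ ≤ Module.finrank K⟮y⟯ F := by
  classical
  rcases isEmpty_or_nonempty Γ with hΓ | ⟨⟨g₀⟩⟩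
  · rw [Fintype.card_eq_zero]
    exact Nat.zero_le _
  let algE : Algebra K⟮y⟯ Ω := ((τ g₀).comp (algebraMap K⟮y⟯ F)).toAlgebra
  let σ : Γ → (F →ₐ[K⟮y⟯] Ω) := fun g =>
    { toRingHom := τ g
      commutes' := fun u => by
        change τ g (u : F) = τ g₀ (u : F)
        rw [eq_on_adjoin_simple (τ g) (τ g₀) (hτ_K g g₀) (hτ_y g g₀) u u.2] }
  have hσ_inj : Function.Injective σ := by
    intro g g' h
    apply hτ_inj
    ext f
    exact congrArg (fun s : F →ₐ[K⟮y⟯] Ω => s f) h
  have : Finite (F →ₐ[K⟮y⟯] Ω) := inferInstance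
  calc Fintype.card Γ = Nat.card Γ := (Nat.card_eq_fintype_card).symm
    _ ≤ Nat.card (F →ₐ[K⟮y⟯] Ω) := Nat.card_le_card_of_injective σ hσ_inj
    _ ≤ Module.finrank K⟮y⟯ F := card_algHom_le_finrank K⟮y⟯ F Ω

/-- H3. the poles of `x` are the zeros of `x⁻¹`. -/
theorem card_poles_eq_card_zeros_inv (x : F) :
    Nat.card {v : Place K F // v.ord x < 0} = Nat.card {v : Place K F // 0 < v.ord x⁻¹} := by
  refine Nat.card_congr (Equiv.subtypeEquivRight fun v => ?_)
  rw [v.ord_inv]
  omega

/-- H3, set form. -/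
theorem setOf_poles_eq_setOf_zeros_inv (x : F) :
    {v : Place K F | v.ord x < 0} = {v : Place K F | 0 < v.ord x⁻¹} := by
  ext v
  change v.ord x < 0 ↔ 0 < v.ord x⁻¹
  rw [v.ord_inv]
  omega

end Fermat.Agent.Lib.ModC
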