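import Mathlib
import Fermat.Prelude.Def_AlgebraicCurve_CanonicalDivisor
import Fermat.Agent.Lib.FunctionField.PlaceBasic

/-!
# Item 68 (S24), block (C), part 3: the norm of an integral element

`b ∈ F` integral over `K[y]` ⇒ `N_{F/K(y)}(b) = b * c` with `c` integral over `K[y]`;
integral elements have nonnegative order at every place where `y` has.
-/

set_option autoImplicit false

open AlgebraicCurve IntermediateField Polynomial

namespace Fermat.Agent.Lib.ModC

open Fermat.Agent.Lib.FF

variable {K F : Type*} [Field K] [Field F] [Algebra K F]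

theorem isIntegralElem_finset_prod {R A ι : Type*} [CommRing R] [CommRing A] (f : R →+* A)
    (s : Finset ι) (x : ι → A) (h : ∀ i ∈ s, f.IsIntegralElem (x i)) :
    f.IsIntegralElem (∏ i ∈ s, x i) := by
  classical
  induction s using Finset.induction_on with
  | empty =>
    rw [Finset.prod_empty]
    exact f.isIntegralElem_one
  | insert a s ha ih =>
    rw [Finset.prod_insert ha]
    exact RingHom.IsIntegralElem.mul f (h a (Finset.mem_insert_self a s))
      (ih fun i hi => h i (Finset.mem_insert_of_mem hi))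

theorem exists_integral_cofactor [CharZero K] {y : F} [FiniteDimensional K⟮y⟯ F] (b : F)
    (hb : IsIntegral (Algebra.adjoin K {y}) b) (hb0 : b ≠ 0) :
    ∃ c : F, IsIntegral (Algebra.adjoin K {y}) c ∧
      ((Algebra.norm K⟮y⟯ b : K⟮y⟯) : F) = b * c := by
  classical
  have : CharZero K⟮y⟯ := charZero_of_injective_algebraMap (algebraMap K K⟮y⟯).injective
  set f : (Algebra.adjoin K {y}) →+* F := algebraMap (Algebra.adjoin K {y}) F with hf
  set φ : F →+* AlgebraicClosure F := algebraMap F (AlgebraicClosure F) with hφ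
  have h1 := Algebra.norm_eq_prod_embeddings K⟮y⟯ (AlgebraicClosure F) b
  let σ₀ : F →ₐ[K⟮y⟯] AlgebraicClosure F := IsScalarTower.toAlgHom K⟮y⟯ F (AlgebraicClosure F)
  rw [← Finset.mul_prod_erase Finset.univ (fun σ : F →ₐ[K⟮y⟯] AlgebraicClosure F => σ b)
    (Finset.mem_univ σ₀)] at h1
  have hσ₀ : σ₀ b = φ b := rfl
  have hN : algebraMap K⟮y⟯ (AlgebraicClosure F) (Algebra.norm K⟮y⟯ b)
      = φ ((Algebra.norm K⟮y⟯ b : K⟮y⟯) : F) := rfl
  rw [hσ₀, hN] at h1
  -- each conjugate is integral
  have hconj : ∀ σ : F →ₐ[K⟮y⟯] AlgebraicClosure F, (φ.comp f).IsIntegralElem (σ b) := by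
    intro σ
    obtain ⟨p, hp, hpb⟩ := hb
    refine ⟨p, hp, ?_⟩
    have hcomp : φ.comp f = (σ : F →+* AlgebraicClosure F).comp f := by
      ext a
      have ha : (a : F) ∈ K⟮y⟯ := IntermediateField.algebra_adjoin_le_adjoin K {y} a.2
      have := σ.commutes ⟨(a : F), ha⟩
      exact this.symm
    rw [hcomp]
    have h2 := Polynomial.hom_eval₂ p f (σ : F →+* AlgebraicClosure F) b
    rw [show eval₂ f b p = 0 from hpb, map_zero] at h2
    exact h2.symm
  have hprod := isIntegralElem_finset_prod (φ.comp f) (Finset.univ.erase σ₀)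
    (fun σ : F →ₐ[K⟮y⟯] AlgebraicClosure F => σ b) (fun σ _ => hconj σ)
  refine ⟨((Algebra.norm K⟮y⟯ b : K⟮y⟯) : F) / b, ?_, by field_simp⟩
  have hc : φ (((Algebra.norm K⟮y⟯ b : K⟮y⟯) : F) / b)
      = ∏ σ ∈ Finset.univ.erase σ₀, (σ : F →ₐ[K⟮y⟯] AlgebraicClosure F) b := by
    rw [map_div₀, h1]
    have : φ b ≠ 0 := by rwa [ne_eq, map_eq_zero]
    field_simp
  rw [← hc] at hprod
  obtain ⟨p, hp, hpc⟩ := hprod
  refine ⟨p, hp, ?_⟩
  have h2 := Polynomial.hom_eval₂ p f φ (((Algebra.norm K⟮y⟯ b : K⟮y⟯) : F) / b)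
  rw [hpc] at h2
  exact φ.injective (by rw [h2, map_zero])

/-- elements integral over `K[y]` are regular at every place where `y` is -/
theorem ord_nonneg_of_isIntegral (v : Place K F) {y : F} (hy : 0 ≤ v.ord y) (c : F)
    (hc : IsIntegral (Algebra.adjoin K {y}) c) : 0 ≤ v.ord c := by
  have hyO : y ∈ v.toValuationSubring := mem_of_ord_nonneg v hy
  have hle : ∀ a : F, a ∈ Algebra.adjoin K {y} → a ∈ v.toValuationSubring := by
    intro a ha
    induction ha using Algebra.adjoin_induction with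
    | mem x hx =>
      rw [Set.mem_singleton_iff] at hx
      rw [hx]; exact hyO
    | algebraMap r => exact v.algebraMap_mem' r
    | add x y _ _ hx hy => exact add_mem hx hy
    | mul x y _ _ hx hy => exact mul_mem hx hy
  let incl : (Algebra.adjoin K {y}) →+* v.toValuationSubring :=
    { toFun := fun a => ⟨(a : F), hle a a.2⟩
      map_one' := rfl
      map_mul' := fun _ _ => rfl
      map_zero' := rfl
      map_add' := fun _ _ => rfl }
  obtain ⟨p, hp, hpc⟩ := hc
  have hint : IsIntegral v.toValuationSubring c := by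
    refine ⟨p.map incl, hp.map incl, ?_⟩
    rw [Polynomial.eval₂_map]
    exact hpc
  obtain ⟨x, hx⟩ := IsIntegrallyClosed.algebraMap_eq_of_integral hint
  rw [← hx]
  exact ord_nonneg_of_mem v x.2

end Fermat.Agent.Lib.ModC
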