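import Mathlib
import Fermat.Prelude.Def_AlgebraicCurve_CanonicalDivisor
import Fermat.Agent.Lib.FunctionField.OrdPlace
import Fermat.Agent.Lib.FunctionField.PlaceBasic

/-!
# Item 68 (S24), block (C), part 1: order functions on `K(y)`

An order function `o` on `F` (in the sense of `Fermat.Agent.Lib.FF.IsOrdFun`) that is trivial on `K`
and positive at `y` is determined on `K(y)` up to the factor `o y`.
-/

set_option autoImplicit false

open AlgebraicCurve IntermediateField Polynomial

namespace Fermat.Agent.Lib.ModC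

open Fermat.Agent.Lib.FF

variable {K F : Type*} [Field K] [Field F] [Algebra K F]

/-- strict triangle inequality for order functions -/
theorem IsOrdFun.add_eq_of_lt {o : F → ℤ} (ho : IsOrdFun o) {f g : F} (hf : f ≠ 0) (hg : g ≠ 0)
    (h : o f < o g) : o (f + g) = o f := by
  have hfg : f + g ≠ 0 := by
    intro h0
    have : g = -f := by
      rw [eq_neg_iff_add_eq_zero, add_comm]; exact h0
    rw [this, ho.neg hf] at h
    exact lt_irrefl _ h
  have h1 := ho.add f g hf hg hfg
  rw [min_eq_left h.le] at h1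
  have h2 := ho.add (f + g) (-g) hfg (neg_ne_zero.mpr hg) (by simpa using hf)
  rw [ho.neg hg, add_neg_cancel_right] at h2
  rcases le_total (o (f + g)) (o g) with h3 | h3
  · rw [min_eq_left h3] at h2
    exact le_antisymm h2 h1
  · rw [min_eq_right h3] at h2
    exact absurd h (not_lt.mpr h2)

/-- polynomials in `y` have nonnegative order if `y` has -/
theorem IsOrdFun.aeval_nonneg {o : F → ℤ} (ho : IsOrdFun o)
    (hK : ∀ c : K, algebraMap K F c ≠ 0 → o (algebraMap K F c) = 0) {y : F} (hy : 0 ≤ o y)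
    (P : K[X]) (hP : aeval y P ≠ 0) : 0 ≤ o (aeval y P) := by
  have hmem : ∀ Q : K[X], aeval y Q ∈ ho.valuationSubring := by
    intro Q
    induction Q using Polynomial.induction_on with
    | C a =>
      rw [aeval_C]
      by_cases ha : algebraMap K F a = 0
      · rw [ha]; exact zero_mem _
      · exact Or.inr (hK a ha).ge
    | add p q hp hq =>
      rw [map_add]
      exact add_mem hp hq
    | monomial n a h =>
      rw [pow_succ, ← mul_assoc, map_mul, aeval_X]
      refine mul_mem h ?_
      by_cases hy0 : y = 0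
      · rw [hy0]; exact zero_mem _
      · exact Or.inr hy
  rcases hmem P with h | h
  · exact absurd h hP
  · exact h

/-- The order of a nonzero polynomial in `y` is `(multiplicity of the root 0) * o y`. -/
theorem IsOrdFun.aeval_eq {o : F → ℤ} (ho : IsOrdFun o)
    (hK : ∀ c : K, algebraMap K F c ≠ 0 → o (algebraMap K F c) = 0) {y : F} (hy : 0 < o y)
    (P : K[X]) (hP : P ≠ 0) (hPy : aeval y P ≠ 0) :
    o (aeval y P) = (P.rootMultiplicity 0 : ℤ) * o y := by
  by_cases hy0 : y = 0
  · subst hy0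
    have h0 : aeval (0 : F) P = algebraMap K F (P.coeff 0) := by
      rw [← Polynomial.coeff_zero_eq_aeval_zero' P]
    rw [h0] at hPy ⊢
    have hc : P.coeff 0 ≠ 0 := by
      intro h; rw [h, map_zero] at hPy; exact hPy rfl
    have hrm : P.rootMultiplicity 0 = 0 := by
      rw [Polynomial.rootMultiplicity_eq_zero_iff]
      intro hroot
      rw [Polynomial.IsRoot, ← Polynomial.coeff_zero_eq_eval_zero] at hroot
      exact absurd hroot hc
    rw [hrm, hK _ hPy]; simp
  obtain ⟨q, hq, hq2⟩ := exists_eq_pow_rootMultiplicity_mul_and_not_dvd P hP 0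
  rw [C_0, sub_zero] at hq hq2
  have hqc : q.coeff 0 ≠ 0 := fun h => hq2 (X_dvd_iff.mpr h)
  have hqy : aeval y q ≠ 0 := by
    intro h
    apply hPy
    rw [hq, map_mul, h, mul_zero]
  have hq0 : o (aeval y q) = 0 := by
    have hdec : aeval y q = algebraMap K F (q.coeff 0) + y * aeval y (divX q) := by
      conv_lhs => rw [← X_mul_divX_add q]
      rw [map_add, map_mul, aeval_X, aeval_C, add_comm]
    have hc : algebraMap K F (q.coeff 0) ≠ 0 := by
      rwa [ne_eq, map_eq_zero]
    by_cases hd : aeval y (divX q) = 0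
    · rw [hdec, hd, mul_zero, add_zero, hK _ hc]
    · rw [hdec, IsOrdFun.add_eq_of_lt ho hc (mul_ne_zero hy0 hd), hK _ hc]
      rw [hK _ hc, ho.mul _ _ hy0 hd]
      have := IsOrdFun.aeval_nonneg ho hK hy.le (divX q) hd
      omega
  conv_lhs => rw [hq]
  rw [map_mul, map_pow, aeval_X, ho.mul _ _ (pow_ne_zero _ hy0) hqy, ho.pow hy0, hq0, add_zero]

/-- Two order functions that are trivial on `K` and positive at `y` are proportional on `K(y)`. -/
theorem IsOrdFun.proportional_on_adjoin {o o' : F → ℤ} (ho : IsOrdFun o) (ho' : IsOrdFun o')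
    (hK : ∀ c : K, algebraMap K F c ≠ 0 → o (algebraMap K F c) = 0)
    (hK' : ∀ c : K, algebraMap K F c ≠ 0 → o' (algebraMap K F c) = 0)
    {y : F} (hy : 0 < o y) (hy' : 0 < o' y) (u : F) (hu : u ∈ K⟮y⟯) (hu0 : u ≠ 0) :
    o u * o' y = o' u * o y := by
  rw [IntermediateField.mem_adjoin_simple_iff] at hu
  obtain ⟨P, Q, rfl⟩ := hu
  have hPy : aeval y P ≠ 0 := by
    intro h; apply hu0; rw [h, zero_div]
  have hQy : aeval y Q ≠ 0 := by
    intro h; apply hu0; rw [h, div_zero]
  have hP : P ≠ 0 := by rintro rfl; simp at hPy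
  have hQ : Q ≠ 0 := by rintro rfl; simp at hQy
  rw [div_eq_mul_inv, ho.mul _ _ hPy (inv_ne_zero hQy), ho'.mul _ _ hPy (inv_ne_zero hQy),
    ho.inv hQy, ho'.inv hQy, IsOrdFun.aeval_eq ho hK hy P hP hPy,
    IsOrdFun.aeval_eq ho hK hy Q hQ hQy, IsOrdFun.aeval_eq ho' hK' hy' P hP hPy,
    IsOrdFun.aeval_eq ho' hK' hy' Q hQ hQy]
  ring

end Fermat.Agent.Lib.ModC
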