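import Mathlib
import Fermat.Prelude.Def_AlgebraicCurve_CanonicalDivisor
import Fermat.Agent.Lib.FunctionField.Defs
import Fermat.Agent.Lib.FunctionField.OrdPlace
import Fermat.Agent.Lib.FunctionField.PlaceBasic
import Fermat.Agent.Lib.ModC.OrdRat
import Fermat.Agent.Lib.ModC.NormEmb
import Fermat.Agent.Lib.ModC.NormInt

/-!
# Item 68 (S24), block (C): the abstract counting lemma

`τ g`, `g ∈ Γ`, are ALL the embeddings of `F` over `K(y)` into a field `Ω` with an order function
`w`; they are grouped into classes on which `w ∘ τ g` is constant; `o = w (τ g y) > 0`; and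
`o ∣ w (τ g f) * |class of g|`.  Then the places of `F` over `y = 0` correspond to the classes.
-/

set_option autoImplicit false

open AlgebraicCurve IntermediateField Polynomial

namespace Fermat.Agent.Lib.ModC

open Fermat.Agent.Lib.FF

variable {K F : Type*} [Field K] [Field F] [Algebra K F]

theorem isOrdFun_comp {Ω : Type*} [Field Ω] {w : Ω → ℤ} (hw : IsOrdFun w) (τ : F →+* Ω) :
    IsOrdFun (fun f => w (τ f)) where
  mul f g hf hg := by
    show w (τ (f * g)) = w (τ f) + w (τ g)
    rw [map_mul]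
    exact hw.mul _ _ ((_root_.map_ne_zero τ).mpr hf) ((_root_.map_ne_zero τ).mpr hg)
  add f g hf hg hfg := by
    show min (w (τ f)) (w (τ g)) ≤ w (τ (f + g))
    rw [map_add]
    exact hw.add _ _ ((_root_.map_ne_zero τ).mpr hf) ((_root_.map_ne_zero τ).mpr hg)
      (by rw [← map_add]; exact (_root_.map_ne_zero τ).mpr hfg)

section Main

variable [CharZero K] {y : F} (hy : IsFF1 K F y)
  {Ω : Type*} [Field Ω] (w : Ω → ℤ) (hw : IsOrdFun w)
  {Γ : Type*} [Fintype Γ] (τ : Γ → F →+* Ω)
  (hτ_inj : Function.Injective τ)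
  (hτ_K : ∀ (g g' : Γ) (c : K), τ g (algebraMap K F c) = τ g' (algebraMap K F c))
  (hτ_y : ∀ g g' : Γ, τ g y = τ g' y)
  (hw_K : ∀ (g : Γ) (c : K), c ≠ 0 → w (τ g (algebraMap K F c)) = 0)
  (hcard : Fintype.card Γ = Module.finrank K⟮y⟯ F)
  (o : ℕ) (ho : 0 < o) (hwy : ∀ g, w (τ g y) = o)

include hy hw hτ_inj hτ_K hτ_y hcard ho hwy in
/-- Surjectivity: every place over `y = 0` is the place of some embedding. -/
theorem exists_emb_of_place
    (hE3 : ∀ (v : Place K F), 0 < v.ord y → ∀ s : Finset (Place K F), v ∉ s →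
        (∀ u ∈ s, 0 ≤ u.ord y) →
        ∃ b : F, IsIntegral (Algebra.adjoin K {y}) b ∧ 0 < v.ord b ∧ ∀ u ∈ s, u.ord b = 0)
    (pl : Γ → Place K F) (d : Γ → ℕ) (hd : ∀ g, 0 < d g)
    (hpl : ∀ g (f : F), f ≠ 0 → w (τ g f) = d g * (pl g).ord f)
    (v : Place K F) (hv : 0 < v.ord y) : ∃ g, pl g = v := by
  classical
  have := hy.finite
  by_contra hcon
  rw [not_exists] at hcon
  have hy0 : y ≠ 0 := fun h => by
    rw [h] at hv; simp at hv
  have hply : ∀ g, 0 < (pl g).ord y := by
    intro g
    have h1 := hpl g y hy0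
    rw [hwy g] at h1
    have h2 : (0 : ℤ) < d g := by exact_mod_cast hd g
    have h3 : (0 : ℤ) < o := by exact_mod_cast ho
    rw [h1] at h3
    by_contra h4
    rw [not_lt] at h4
    nlinarith
  obtain ⟨b, hbint, hbv, hbs⟩ := hE3 v hv (Finset.univ.image pl)
    (by
      rw [Finset.mem_image]
      rintro ⟨g, -, hg⟩
      exact hcon g hg)
    (by
      intro u hu
      rw [Finset.mem_image] at hu
      obtain ⟨g, -, rfl⟩ := hu
      exact (hply g).le)
  have hb0 : b ≠ 0 := fun h => by
    rw [h] at hbv; simp at hbv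
  -- Γ is nonempty
  have hΓ : Nonempty Γ := by
    rw [← Fintype.card_pos_iff, hcard]
    exact Module.finrank_pos
  obtain ⟨g₀⟩ := hΓ
  -- the norm
  set Nb : F := ((Algebra.norm K⟮y⟯ b : K⟮y⟯) : F) with hNb
  have hnorm := norm_eq_prod_of_card τ hτ_inj hτ_K hτ_y hcard g₀ b
  obtain ⟨c, hcint, hc⟩ := exists_integral_cofactor b hbint hb0
  have hNb0 : Nb ≠ 0 := by
    rw [hNb, ne_eq, ZeroMemClass.coe_eq_zero, Algebra.norm_eq_zero_iff]
    exact hb0
  have hc0 : c ≠ 0 := by
    rintro rfl
    rw [mul_zero] at hc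
    exact hNb0 hc
  -- `w (τ g₀ Nb) = 0`
  have hw0 : w (τ g₀ Nb) = 0 := by
    rw [hnorm]
    have hprod : ∀ s : Finset Γ, w (∏ g ∈ s, τ g b) = ∑ g ∈ s, w (τ g b) := by
      intro s
      induction s using Finset.induction_on with
      | empty => simpa using hw.one
      | insert a s ha ih =>
        rw [Finset.prod_insert ha, Finset.sum_insert ha, hw.mul _ _ ((_root_.map_ne_zero _).mpr hb0)
          (Finset.prod_ne_zero_iff.mpr fun g _ => (_root_.map_ne_zero _).mpr hb0), ih]
    rw [hprod]
    apply Finset.sum_eq_zero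
    intro g _
    rw [hpl g b hb0, hbs (pl g) (Finset.mem_image_of_mem pl (Finset.mem_univ g)), mul_zero]
  -- hence `(pl g₀).ord Nb = 0`
  have h1 : (pl g₀).ord Nb = 0 := by
    have h := hpl g₀ Nb hNb0
    rw [hw0] at h
    have h2 : (d g₀ : ℤ) ≠ 0 := by exact_mod_cast (hd g₀).ne'
    rcases mul_eq_zero.mp h.symm with h3 | h3
    · exact absurd h3 h2
    · exact h3
  -- transfer to `v` along `K(y)`
  have h2 := IsOrdFun.proportional_on_adjoin (K := K) (isOrdFun_ord v) (isOrdFun_ord (pl g₀))
    (fun c _ => ord_algebraMap v c) (fun c _ => ord_algebraMap (pl g₀) c) hv (hply g₀) Nb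
    (Algebra.norm K⟮y⟯ b).2 hNb0
  rw [h1, zero_mul] at h2
  have h3 : v.ord Nb = 0 := by
    rcases mul_eq_zero.mp h2 with h | h
    · exact h
    · exact absurd h (hply g₀).ne'
  -- but `v.ord Nb = v.ord b + v.ord c > 0`
  have h4 : v.ord Nb = v.ord b + v.ord c := by
    rw [hNb, hc, Place.ord_mul v hb0 hc0]
  have h5 := ord_nonneg_of_isIntegral v hv.le c hcint
  omega

include hy hw hτ_inj hτ_K hτ_y hw_K hcard ho hwy in
/-- **The counting lemma.** -/
theorem card_zeros_eq_card_classes
    (hfin : {v : Place K F | 0 < v.ord y}.Finite)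
    (hE1 : ∑ v ∈ hfin.toFinset, v.ord y = (Module.finrank K⟮y⟯ F : ℤ))
    (hE3 : ∀ (v : Place K F), 0 < v.ord y → ∀ s : Finset (Place K F), v ∉ s →
        (∀ u ∈ s, 0 ≤ u.ord y) →
        ∃ b : F, IsIntegral (Algebra.adjoin K {y}) b ∧ 0 < v.ord b ∧ ∀ u ∈ s, u.ord b = 0)
    (r : Setoid Γ)
    (hr : ∀ g g', r g g' → ∀ f : F, w (τ g f) = w (τ g' f))
    (hdiv : ∀ (g : Γ) (f : F), f ≠ 0 → (o : ℤ) ∣ w (τ g f) * Nat.card {g' : Γ // r g g'}) :
    Nat.card {v : Place K F // 0 < v.ord y} = Nat.card (Quotient r) := by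
  classical
  have hy0 : y ≠ 0 := by
    rintro rfl
    exact hy.transcendental (isAlgebraic_zero)
  -- the places of the embeddings
  have hex : ∀ g, ∃ (v : Place K F) (d : ℕ), 0 < d ∧
      ∀ f : F, f ≠ 0 → w (τ g f) = d * v.ord f := by
    intro g
    obtain ⟨v, d, hd, -, h⟩ := exists_place_of_ord (K := K) (fun f => w (τ g f))
      (isOrdFun_comp hw (τ g)).mul (isOrdFun_comp hw (τ g)).add
      (fun c hc => hw_K g c (by rintro rfl; simp at hc))
      ⟨y, hy0, by rw [hwy]; exact_mod_cast ho.ne'⟩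
    exact ⟨v, d, hd, h⟩
  choose pl d hd hpl using hex
  have hply : ∀ g, 0 < (pl g).ord y := by
    intro g
    have h1 := hpl g y hy0
    rw [hwy g] at h1
    have h2 : (0 : ℤ) < d g := by exact_mod_cast hd g
    have h3 : (0 : ℤ) < o := by exact_mod_cast ho
    rw [h1] at h3
    by_contra h4
    rw [not_lt] at h4
    nlinarith
  have hplr : ∀ g g', r g g' → pl g = pl g' := by
    intro g g' h
    apply place_ext_of_ord
    intro f hf hf0
    have h1 := hpl g f hf
    have h2 := hpl g' f hf
    rw [hr g g' h f, h2] at h1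
    have h3 : (0 : ℤ) < d g' := by exact_mod_cast hd g'
    have h4 : (0 : ℤ) < d g := by exact_mod_cast hd g
    by_contra h5
    rw [not_le] at h5
    nlinarith
  -- ramification bound
  have hram : ∀ g, (pl g).ord y ≤ Nat.card {g' : Γ // r g g'} := by
    intro g
    obtain ⟨t, ht⟩ := exists_ord_eq_one (pl g)
    have ht0 : t ≠ 0 := by
      rintro rfl
      simp at ht
    have h1 := hdiv g t ht0
    rw [hpl g t ht0, ht, mul_one] at h1
    have h2 := hpl g y hy0
    rw [hwy g] at h2
    rw [h2] at h1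
    have h3 : (d g : ℤ) ≠ 0 := by exact_mod_cast (hd g).ne'
    have h4 : (pl g).ord y ∣ (Nat.card {g' : Γ // r g g'} : ℤ) :=
      (mul_dvd_mul_iff_left h3).mp h1
    have h5 : 0 < Nat.card {g' : Γ // r g g'} := by
      have : Nonempty {g' : Γ // r g g'} := ⟨⟨g, r.refl g⟩⟩
      exact Nat.card_pos
    exact Int.le_of_dvd (by exact_mod_cast h5) h4
  -- surjectivity
  have hsurj := exists_emb_of_place hy w hw τ hτ_inj hτ_K hτ_y hcard o ho hwy hE3 pl d hd hpl
  -- the map on classes
  let plQ : Quotient r → Place K F := Quotient.lift pl hplr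
  have hplQ : ∀ g, plQ (Quotient.mk r g) = pl g := fun g => rfl
  have hmaps : ∀ c ∈ (Finset.univ : Finset (Quotient r)), plQ c ∈ hfin.toFinset := by
    intro c _
    induction c using Quotient.inductionOn with
    | h g =>
      rw [Set.Finite.mem_toFinset]
      exact hply g
  -- class sizes
  have hclass : ∀ g, (Nat.card {g' : Γ // r g g'})
      = (Finset.univ.filter (fun g' : Γ => Quotient.mk r g' = Quotient.mk r g)).card := by
    intro g
    rw [Nat.card_eq_fintype_card, Fintype.card_subtype]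
    congr 1
    ext g'
    simp only [Finset.mem_filter, Finset.mem_univ, true_and]
    rw [Quotient.eq]
    exact ⟨fun h => r.symm h, fun h => r.symm h⟩
  have hsum1 : ∑ c : Quotient r, (plQ c).ord y ≤ (Module.finrank K⟮y⟯ F : ℤ) := by
    have h1 : ∑ c : Quotient r, (plQ c).ord y
        ≤ ∑ c : Quotient r, ((Finset.univ.filter (fun g' : Γ => Quotient.mk r g' = c)).card : ℤ) := by
      apply Finset.sum_le_sum
      intro c _
      induction c using Quotient.inductionOn with
      | h g =>
        have := hram g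
        rw [hclass g] at this
        exact this
    have h2 : ∑ c : Quotient r, ((Finset.univ.filter (fun g' : Γ => Quotient.mk r g' = c)).card : ℤ)
        = (Fintype.card Γ : ℤ) := by
      rw [← Nat.cast_sum, ← Finset.card_eq_sum_card_fiberwise (f := Quotient.mk r)
        (s := Finset.univ) (t := Finset.univ) (fun _ _ => Finset.mem_univ _), Finset.card_univ]
    rw [h2, hcard] at h1
    exact h1
  have hsum2 : ∑ c : Quotient r, (plQ c).ord y
      = ∑ v ∈ hfin.toFinset, ((Finset.univ.filter (fun c : Quotient r => plQ c = v)).card : ℤ)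
          * v.ord y := by
    rw [← Finset.sum_fiberwise_of_maps_to hmaps]
    apply Finset.sum_congr rfl
    intro v _
    rw [Finset.sum_congr rfl (g := fun _ => v.ord y)
      (fun c hc => by rw [(Finset.mem_filter.mp hc).2])]
    rw [Finset.sum_const, nsmul_eq_mul]
  have hfib_pos : ∀ v ∈ hfin.toFinset,
      1 ≤ (Finset.univ.filter (fun c : Quotient r => plQ c = v)).card := by
    intro v hv
    rw [Set.Finite.mem_toFinset] at hv
    obtain ⟨g, hg⟩ := hsurj v hv
    exact Finset.card_pos.mpr ⟨Quotient.mk r g, by simp [hplQ, hg]⟩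
  have hfib_one : ∀ v ∈ hfin.toFinset,
      (Finset.univ.filter (fun c : Quotient r => plQ c = v)).card = 1 := by
    by_contra hcon
    rw [not_forall] at hcon
    obtain ⟨v₀, hcon⟩ := hcon
    rw [Classical.not_imp] at hcon
    obtain ⟨hv₀, hne⟩ := hcon
    have h2 : 2 ≤ (Finset.univ.filter (fun c : Quotient r => plQ c = v₀)).card := by
      have := hfib_pos v₀ hv₀
      omega
    have hlt : ∑ v ∈ hfin.toFinset, v.ord y
        < ∑ v ∈ hfin.toFinset,
          ((Finset.univ.filter (fun c : Quotient r => plQ c = v)).card : ℤ) * v.ord y := by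
      apply Finset.sum_lt_sum
      · intro v hv
        have h1 := hfib_pos v hv
        have h3 : 0 < v.ord y := (Set.Finite.mem_toFinset hfin).mp hv
        have h4 : (1 : ℤ) ≤ ((Finset.univ.filter (fun c : Quotient r => plQ c = v)).card : ℤ) := by
          exact_mod_cast h1
        nlinarith
      · refine ⟨v₀, hv₀, ?_⟩
        have h3 : 0 < v₀.ord y := (Set.Finite.mem_toFinset hfin).mp hv₀
        have h4 : (2 : ℤ) ≤ ((Finset.univ.filter (fun c : Quotient r => plQ c = v₀)).card : ℤ) := by
          exact_mod_cast h2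
        nlinarith
    rw [← hsum2, hE1] at hlt
    exact absurd hsum1 (not_le.mpr hlt)
  -- conclusion
  have hcardQ : Fintype.card (Quotient r) = hfin.toFinset.card := by
    rw [← Finset.card_univ, Finset.card_eq_sum_card_fiberwise (f := plQ) hmaps,
      Finset.sum_congr rfl hfib_one]
    simp
  rw [Nat.card_eq_fintype_card (α := Quotient r), hcardQ, ← Set.ncard_eq_toFinset_card _ hfin]
  exact Nat.card_coe_set_eq {v : Place K F | 0 < v.ord y}

end Main

end Fermat.Agent.Lib.ModC
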