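import Mathlib
import Fermat.Agent.Lib.ModC.Count

/-!
# Item 68 (S24), block (C): the counting lemma for orbits of a cyclic group

The classes of `card_zeros_eq_card_classes` are the orbits of `zpowers δ` acting on the index set
of the embeddings.
-/

set_option autoImplicit false

open AlgebraicCurve IntermediateField

namespace Fermat.Agent.Lib.ModC

open Fermat.Agent.Lib.FF

variable {K F : Type*} [Field K] [Field F] [Algebra K F]

theorem card_orbit_class {G X : Type*} [Group G] [MulAction G X] [Fintype X] (δ : G) (x : X) :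
    Nat.card {x' : X // MulAction.orbitRel (Subgroup.zpowers δ) X x x'}
      = Function.minimalPeriod (δ • ·) x := by
  classical
  have e : {x' : X // MulAction.orbitRel (Subgroup.zpowers δ) X x x'}
      ≃ MulAction.orbit (Subgroup.zpowers δ) x :=
    Equiv.subtypeEquivRight (fun x' => by
      rw [MulAction.orbitRel_apply]
      exact MulAction.mem_orbit_symm)
  rw [Nat.card_congr e, Nat.card_eq_fintype_card, ← MulAction.minimalPeriod_eq_card]

theorem card_zeros_eq_card_orbits [CharZero K] {y : F} (hy : IsFF1 K F y)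
    (hfin : {v : Place K F | 0 < v.ord y}.Finite)
    (hE1 : ∑ v ∈ hfin.toFinset, v.ord y = (Module.finrank K⟮y⟯ F : ℤ))
    (hE3 : ∀ (v : Place K F), 0 < v.ord y → ∀ s : Finset (Place K F), v ∉ s →
        (∀ u ∈ s, 0 ≤ u.ord y) →
        ∃ b : F, IsIntegral (Algebra.adjoin K {y}) b ∧ 0 < v.ord b ∧ ∀ u ∈ s, u.ord b = 0)
    {Ω : Type*} [Field Ω] (w : Ω → ℤ) (hw : IsOrdFun w)
    {G X : Type*} [Group G] [MulAction G X] [Fintype X] (τ : X → F →+* Ω)
    (hτ_inj : Function.Injective τ)
    (hτ_K : ∀ (g g' : X) (c : K), τ g (algebraMap K F c) = τ g' (algebraMap K F c))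
    (hτ_y : ∀ g g' : X, τ g y = τ g' y)
    (hw_K : ∀ (g : X) (c : K), c ≠ 0 → w (τ g (algebraMap K F c)) = 0)
    (hcard : Fintype.card X = Module.finrank K⟮y⟯ F)
    (o : ℕ) (ho : 0 < o) (hwy : ∀ g, w (τ g y) = o)
    (δ : G)
    (hinv : ∀ (x : X) (f : F), w (τ (δ • x) f) = w (τ x f))
    (hdiv : ∀ (x : X) (f : F) (h : ℕ), f ≠ 0 → 0 < h → δ ^ h • x = x →
      (o : ℤ) ∣ h * w (τ x f)) :
    Nat.card {v : Place K F // 0 < v.ord y}
      = Nat.card (MulAction.orbitRel.Quotient (Subgroup.zpowers δ) X) := by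
  classical
  have hpow : ∀ (n : ℕ) (x : X) (f : F), w (τ (δ ^ n • x) f) = w (τ x f) := by
    intro n
    induction n with
    | zero => intro x f; rw [pow_zero, one_smul]
    | succ n ih =>
      intro x f
      rw [pow_succ', mul_smul, hinv, ih]
  have hzpow : ∀ (k : ℤ) (x : X) (f : F), w (τ (δ ^ k • x) f) = w (τ x f) := by
    intro k x f
    rcases Int.eq_nat_or_neg k with ⟨n, rfl | rfl⟩
    · rw [zpow_natCast]; exact hpow n x f
    · have := hpow n (δ ^ (-(n : ℤ)) • x) f
      rw [← zpow_natCast, ← mul_smul, ← zpow_add, add_neg_cancel, zpow_zero, one_smul] at this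
      exact this.symm
  refine card_zeros_eq_card_classes hy w hw τ hτ_inj hτ_K hτ_y hw_K hcard o ho hwy hfin hE1 hE3
    (MulAction.orbitRel (Subgroup.zpowers δ) X) ?_ ?_
  · intro x x' h f
    rw [MulAction.orbitRel_apply] at h
    obtain ⟨⟨g, hg⟩, hgx⟩ := h
    obtain ⟨k, rfl⟩ := Subgroup.mem_zpowers_iff.mp hg
    have : δ ^ k • x' = x := hgx
    rw [← this, hzpow]
  · intro x f hf
    rw [card_orbit_class δ x, mul_comm]
    have hpos : 0 < Function.minimalPeriod (δ • ·) x := by
      apply Function.minimalPeriod_pos_of_mem_periodicPts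
      have hinj : Function.Injective (fun x' : X => δ • x') := MulAction.injective δ
      exact hinj.mem_periodicPts x
    refine hdiv x f _ hf hpos ?_
    exact MulAction.pow_period_smul δ x

end Fermat.Agent.Lib.ModC
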