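import Mathlib
import Fermat.Agent.Lib.ModC.Cyclic
import Fermat.Agent.Lib.FunctionField.PlaceFactsMain
import Fermat.Agent.Lib.FunctionField.Separate

/-!
# Item 68 (S24), block (C): models and the place count of a model

A `Model K F N y o δ` packages what the analytic side delivers at one base point:
embeddings `τ γ : F →+* Ω` indexed by `γ ∈ SL(2,ℤ)`, depending exactly on the left coset
`γ Γ₀(N)`, an order function `w` on `Ω` with `w (τ γ y) = o`, invariant under the stabiliser
generator `δ`, with the divisibility coming from the rotation/width lemma.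
-/

set_option autoImplicit false

open AlgebraicCurve IntermediateField
open scoped MatrixGroups

namespace Fermat.Agent.Lib.ModC

open Fermat.Agent.Lib.FF CongruenceSubgroup

/-- What the analytic side delivers at one base point. -/
structure Model (K F : Type*) [Field K] [Field F] [Algebra K F] (N : ℕ) (y : F) (o : ℕ)
    (δ : SL(2, ℤ)) where
  Ω : Type
  [field : Field Ω]
  w : Ω → ℤ
  isOrdFun : IsOrdFun w
  τ : SL(2, ℤ) → (F →+* Ω)
  τ_eq_iff : ∀ γ γ' : SL(2, ℤ), τ γ = τ γ' ↔ γ⁻¹ * γ' ∈ Gamma0 N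
  τ_const : ∀ (γ : SL(2, ℤ)) (c : K), τ γ (algebraMap K F c) = τ 1 (algebraMap K F c)
  τ_y : ∀ γ : SL(2, ℤ), τ γ y = τ 1 y
  w_const : ∀ (γ : SL(2, ℤ)) (c : K), c ≠ 0 → w (τ γ (algebraMap K F c)) = 0
  w_y : w (τ 1 y) = o
  w_stab : ∀ (γ : SL(2, ℤ)) (f : F), w (τ (δ * γ) f) = w (τ γ f)
  w_dvd : ∀ (γ : SL(2, ℤ)) (f : F) (h : ℕ), f ≠ 0 → 0 < h →
    γ⁻¹ * δ ^ h * γ ∈ Gamma0 N → (o : ℤ) ∣ h * w (τ γ f)

attribute [instance] Model.field

variable {K F : Type*} [Field K] [Field F] [Algebra K F]

theorem smul_mk_eq_iff {N : ℕ} (g γ : SL(2, ℤ)) :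
    g • (γ : SL(2, ℤ) ⧸ Gamma0 N) = (γ : SL(2, ℤ) ⧸ Gamma0 N) ↔ γ⁻¹ * g * γ ∈ Gamma0 N := by
  rw [MulAction.Quotient.smul_mk, QuotientGroup.eq]
  constructor
  · intro h
    have := (Gamma0 N).inv_mem h
    simpa [mul_assoc] using this
  · intro h
    have := (Gamma0 N).inv_mem h
    simpa [mul_assoc] using this

/-- The place count of a model. -/
theorem Model.card_zeros [IsAlgClosed K] [CharZero K] {N : ℕ} {y : F} {o : ℕ}
    {δ : SL(2, ℤ)} (M : Model K F N y o δ) (ho : 0 < o) (hy : IsFF1 K F y)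
    [Finite (SL(2, ℤ) ⧸ Gamma0 N)]
    (hdeg : Module.finrank K⟮y⟯ F = Nat.card (SL(2, ℤ) ⧸ Gamma0 N)) :
    Nat.card {v : Place K F // 0 < v.ord y}
      = Nat.card (MulAction.orbitRel.Quotient (Subgroup.zpowers δ) (SL(2, ℤ) ⧸ Gamma0 N)) := by
  classical
  letI : Fintype (SL(2, ℤ) ⧸ Gamma0 N) := Fintype.ofFinite _
  have hpf := placeFacts_of_isFF1 hy
  let τX : (SL(2, ℤ) ⧸ Gamma0 N) → (F →+* M.Ω) :=
    Quotient.lift M.τ (fun γ γ' h => by
      rw [M.τ_eq_iff]
      exact QuotientGroup.leftRel_apply.mp h)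
  have hτX : ∀ γ : SL(2, ℤ), τX (γ : SL(2, ℤ) ⧸ Gamma0 N) = M.τ γ := fun γ => rfl
  refine card_zeros_eq_card_orbits hy (hpf.finite_zeros y hy.transcendental)
    (hpf.sum_ord_zeros y hy.transcendental) (exists_integral_separating hy) M.w M.isOrdFun
    τX ?_ ?_ ?_ ?_ ?_ o ho ?_ δ ?_ ?_
  · intro x x' h
    induction x using QuotientGroup.induction_on with
    | H γ =>
      induction x' using QuotientGroup.induction_on with
      | H γ' =>
        rw [hτX, hτX, M.τ_eq_iff] at h
        exact QuotientGroup.eq.mpr h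
  · intro x x' c
    induction x using QuotientGroup.induction_on with
    | H γ =>
      induction x' using QuotientGroup.induction_on with
      | H γ' => rw [hτX, hτX, M.τ_const γ, M.τ_const γ']
  · intro x x'
    induction x using QuotientGroup.induction_on with
    | H γ =>
      induction x' using QuotientGroup.induction_on with
      | H γ' => rw [hτX, hτX, M.τ_y γ, M.τ_y γ']
  · intro x c hc
    induction x using QuotientGroup.induction_on with
    | H γ => rw [hτX]; exact M.w_const γ c hc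
  · rw [hdeg, Nat.card_eq_fintype_card]
  · intro x
    induction x using QuotientGroup.induction_on with
    | H γ => rw [hτX, M.τ_y γ, M.w_y]
  · intro x f
    induction x using QuotientGroup.induction_on with
    | H γ =>
      rw [MulAction.Quotient.smul_mk, hτX, hτX]
      exact M.w_stab γ f
  · intro x f h hf hh hfix
    induction x using QuotientGroup.induction_on with
    | H γ =>
      rw [hτX]
      exact M.w_dvd γ f h hf hh ((smul_mk_eq_iff _ γ).mp hfix)

end Fermat.Agent.Lib.ModC
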