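import Mathlib

/-!
# Item 68 (S24): orbits of a cyclic group of prime order (D6)

If `g ^ p` acts trivially on the finite set `X` (`p` prime), then
`p * #(X / ⟨g⟩) = #X + (p - 1) * #Fix(g)`.  Also: the orbits of the trivial group.
-/

set_option autoImplicit false

namespace Fermat.Agent.Lib.ModC

open MulAction

theorem card_orbits_prime {G X : Type*} [Group G] [MulAction G X] [Finite X]
    (g : G) (p : ℕ) (hp : p.Prime) (hg : ∀ x : X, g ^ p • x = x) :
    p * Nat.card (orbitRel.Quotient (Subgroup.zpowers g) X)
      = Nat.card X + (p - 1) * Nat.card (fixedBy X g) := by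
  classical
  letI : Fintype X := Fintype.ofFinite X
  letI : Fintype (orbitRel.Quotient (Subgroup.zpowers g) X) := Fintype.ofFinite _
  set Q := orbitRel.Quotient (Subgroup.zpowers g) X with hQ
  let mk : X → Q := fun x => Quotient.mk'' x
  let s : Q → ℕ := fun q => (Finset.univ.filter (fun x' : X => mk x' = q)).card
  have hs : ∀ x : X, s (mk x) = period g x := by
    intro x
    have e : {x' : X // mk x' = mk x} ≃ orbit (Subgroup.zpowers g) x :=
      Equiv.subtypeEquivRight (fun x' => by
        show (Quotient.mk'' x' : Q) = Quotient.mk'' x ↔ _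
        rw [Quotient.eq'']
        exact Iff.rfl)
    show (Finset.univ.filter (fun x' : X => mk x' = mk x)).card = period g x
    rw [← Fintype.card_subtype, Fintype.card_congr e]
    exact (MulAction.minimalPeriod_eq_card (a := g) (b := x)).symm
  have hper : ∀ x : X, period g x = 1 ∨ period g x = p := by
    intro x
    have : period g x ∣ p := MulAction.pow_smul_eq_iff_period_dvd.mp (hg x)
    exact (Nat.dvd_prime hp).mp this
  have hfix : ∀ x : X, period g x = 1 ↔ g • x = x := fun x => MulAction.period_eq_one_iff
  -- `#X = Σ_q s q`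
  have hX : Fintype.card X = ∑ q : Q, s q := by
    rw [← Finset.card_univ]
    exact Finset.card_eq_sum_card_fiberwise (f := mk) (s := Finset.univ) (t := Finset.univ)
      (fun _ _ => Finset.mem_univ _)
  -- the orbits of size one
  let Q1 : Finset Q := Finset.univ.filter (fun q => s q = 1)
  have hs' : ∀ q : Q, s q = if q ∈ Q1 then 1 else p := by
    intro q
    induction q using Quotient.inductionOn' with
    | h x =>
      have h1 : s (mk x) = period g x := hs x
      by_cases hq : (Quotient.mk'' x : Q) ∈ Q1
      · rw [if_pos hq]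
        exact (Finset.mem_filter.mp hq).2
      · rw [if_neg hq]
        have h2 : ¬ s (mk x) = 1 := fun h => hq (Finset.mem_filter.mpr ⟨Finset.mem_univ _, h⟩)
        rcases hper x with h3 | h3
        · exact absurd (h1.trans h3) h2
        · exact h1.trans h3
  have hQ1 : Q1.card = Fintype.card (fixedBy X g) := by
    have himg : Q1 = (Finset.univ.filter (fun x : X => g • x = x)).image mk := by
      ext q
      simp only [Q1, Finset.mem_filter, Finset.mem_univ, true_and, Finset.mem_image]
      constructor
      · intro h
        induction q using Quotient.inductionOn' with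
        | h x =>
          refine ⟨x, ?_, rfl⟩
          rw [← hfix, ← hs x]
          exact h
      · rintro ⟨x, hx, rfl⟩
        rw [hs x, hfix]
        exact hx
    rw [himg, Finset.card_image_of_injOn, Fintype.card_subtype]
    · rfl
    · intro x hx x' hx' hxx'
      have hx1 : g • x = x := (Finset.mem_filter.mp hx).2
      have h1 : s (mk x) = 1 := by rw [hs x, hfix]; exact hx1
      obtain ⟨a, ha⟩ := Finset.card_eq_one.mp h1
      have m1 : x ∈ Finset.univ.filter (fun x'' : X => mk x'' = mk x) :=
        Finset.mem_filter.mpr ⟨Finset.mem_univ _, rfl⟩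
      have m2 : x' ∈ Finset.univ.filter (fun x'' : X => mk x'' = mk x) :=
        Finset.mem_filter.mpr ⟨Finset.mem_univ _, hxx'.symm⟩
      rw [ha, Finset.mem_singleton] at m1 m2
      rw [m1, m2]
  have hsum : ∑ q : Q, s q = Q1.card + p * (Fintype.card Q - Q1.card) := by
    rw [Finset.sum_congr rfl (fun q _ => hs' q), Finset.sum_ite, Finset.sum_const,
      Finset.sum_const, smul_eq_mul, smul_eq_mul, mul_one]
    have h1 : (Finset.univ.filter (fun q : Q => q ∈ Q1)) = Q1 := by
      ext q; simp
    have h2 : (Finset.univ.filter (fun q : Q => q ∉ Q1)).card = Fintype.card Q - Q1.card := by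
      rw [← Finset.card_univ, ← Finset.card_sdiff_of_subset (Finset.subset_univ Q1)]
      congr 1
      ext q; simp
    rw [h1, h2, mul_comm]
  have hle : Q1.card ≤ Fintype.card Q := by
    rw [← Finset.card_univ]
    exact Finset.card_le_card (Finset.subset_univ _)
  rw [Nat.card_eq_fintype_card, Nat.card_eq_fintype_card, Nat.card_eq_fintype_card, hX, hsum,
    ← hQ1]
  have hp1 : 1 ≤ p := hp.one_lt.le
  obtain ⟨k, hk⟩ := Nat.exists_eq_add_of_le hle
  obtain ⟨m, hm⟩ := Nat.exists_eq_add_of_le hp1
  rw [hk, hm]
  simp only [Nat.add_sub_cancel_left]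
  ring

/-- orbits of the trivial group -/
theorem card_orbits_one {G X : Type*} [Group G] [MulAction G X] :
    Nat.card (orbitRel.Quotient (Subgroup.zpowers (1 : G)) X) = Nat.card X := by
  symm
  apply Nat.card_congr
  refine Equiv.ofBijective (fun x => (Quotient.mk'' x : orbitRel.Quotient _ X)) ⟨?_, ?_⟩
  · intro x x' h
    rw [Quotient.eq''] at h
    obtain ⟨⟨a, ha⟩, hax⟩ := h
    rw [Subgroup.zpowers_one_eq_bot, Subgroup.mem_bot] at ha
    subst ha
    have : (1 : G) • x' = x := hax
    rw [one_smul] at this
    exact this.symm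
  · intro q
    induction q using Quotient.inductionOn' with
    | h x => exact ⟨x, rfl⟩

end Fermat.Agent.Lib.ModC
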