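import Mathlib
import Fermat.Agent.Lib.ModC.Model
import Fermat.Agent.Lib.ModC.OrbitCount
import Fermat.Agent.Lib.Gamma0Count.PrimCount
import Fermat.Agent.Lib.Gamma0Count.Fixed
import Fermat.Agent.Lib.Gamma0Count.CuspCount

/-!
# Item 68 (S24), block (C): the place counts from the models and the coset counts (D)
-/

set_option autoImplicit false

open AlgebraicCurve IntermediateField ModularCurve
open scoped MatrixGroups

namespace Fermat.Agent.Lib.ModC

open Fermat.Agent.Lib.FF CongruenceSubgroup Fermat.Agent.Lib.Gamma0Count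

variable {K F : Type*} [Field K] [Field F] [Algebra K F] [IsAlgClosed K] [CharZero K]

theorem finite_quotient_Gamma0 (N : ℕ) [NeZero N] : Finite (SL(2, ℤ) ⧸ Gamma0 N) := by
  apply Nat.finite_of_card_ne_zero
  rw [card_quotient]
  have h : N ∣ N := dvd_rfl
  intro h0
  have hmem : (1 : ℕ) ∈ (N.divisors.filter fun d => Squarefree d) := by
    rw [Finset.mem_filter, Nat.mem_divisors]
    exact ⟨⟨one_dvd N, NeZero.ne N⟩, squarefree_one⟩
  have := Finset.sum_eq_zero_iff.mp (by rw [dedekindPsi] at h0; exact h0) 1 hmem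
  rw [Nat.div_one] at this
  exact NeZero.ne N this

theorem neg_one_smul_quotient (N : ℕ) (x : SL(2, ℤ) ⧸ Gamma0 N) : (-1 : SL(2, ℤ)) • x = x := by
  induction x using QuotientGroup.induction_on with
  | H γ =>
    rw [smul_mk_eq_iff]
    have : γ⁻¹ * (-1) * γ = -1 := by
      rw [mul_neg, mul_one, neg_mul, inv_mul_cancel]
    rw [this, Gamma0_mem]
    simp

theorem S_sq_smul (N : ℕ) (x : SL(2, ℤ) ⧸ Gamma0 N) : ModularGroup.S ^ 2 • x = x := by
  have h : ModularGroup.S ^ 2 = (-1 : SL(2, ℤ)) := by decide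
  rw [h]
  exact neg_one_smul_quotient N x

theorem ST_cube_eq : (ModularGroup.S * ModularGroup.T) ^ 3 = (-1 : SL(2, ℤ)) := by
  decide

theorem ST_cube_smul (N : ℕ) (x : SL(2, ℤ) ⧸ Gamma0 N) :
    (ModularGroup.S * ModularGroup.T) ^ 3 • x = x := by
  rw [ST_cube_eq]
  exact neg_one_smul_quotient N x

/-- From the rotation lemma in "fixed coset" form to the divisibility field `w_dvd` of a model,
for a stabiliser generator `δ` whose `p`-th power acts trivially on the cosets (`p` prime). -/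
theorem w_dvd_of_fixed (N : ℕ) (δ : SL(2, ℤ)) (p : ℕ) (hp : p.Prime)
    (hδ : ∀ x : SL(2, ℤ) ⧸ Gamma0 N, δ ^ p • x = x) (W : SL(2, ℤ) → ℤ)
    (hfix : ∀ γ : SL(2, ℤ), γ⁻¹ * δ * γ ∈ Gamma0 N → (p : ℤ) ∣ W γ)
    (γ : SL(2, ℤ)) (h : ℕ) (hγ : γ⁻¹ * δ ^ h * γ ∈ Gamma0 N) : (p : ℤ) ∣ h * W γ := by
  by_cases hph : p ∣ h
  · exact Dvd.dvd.mul_right (by exact_mod_cast hph) _
  · apply Dvd.dvd.mul_left
    apply hfix
    rw [← smul_mk_eq_iff]
    have h1 : δ ^ h • (γ : SL(2, ℤ) ⧸ Gamma0 N) = γ := (smul_mk_eq_iff _ γ).mpr hγ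
    have h2 := MulAction.pow_smul_eq_iff_period_dvd.mp h1
    have h3 := MulAction.pow_smul_eq_iff_period_dvd.mp (hδ (γ : SL(2, ℤ) ⧸ Gamma0 N))
    have h4 : MulAction.period δ (γ : SL(2, ℤ) ⧸ Gamma0 N) = 1 := by
      rcases (Nat.dvd_prime hp).mp h3 with h5 | h5
      · exact h5
      · rw [h5] at h2; exact absurd h2 hph
    exact MulAction.period_eq_one_iff.mp h4

theorem w_dvd_S (N : ℕ) (W : SL(2, ℤ) → ℤ)
    (hfix : ∀ γ : SL(2, ℤ), γ⁻¹ * ModularGroup.S * γ ∈ Gamma0 N → (2 : ℤ) ∣ W γ)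
    (γ : SL(2, ℤ)) (h : ℕ) (hγ : γ⁻¹ * ModularGroup.S ^ h * γ ∈ Gamma0 N) :
    ((2 : ℕ) : ℤ) ∣ h * W γ :=
  w_dvd_of_fixed N ModularGroup.S 2 Nat.prime_two (S_sq_smul N) W
    (fun γ hγ => by exact_mod_cast hfix γ hγ) γ h hγ

theorem w_dvd_ST (N : ℕ) (W : SL(2, ℤ) → ℤ)
    (hfix : ∀ γ : SL(2, ℤ), γ⁻¹ * (ModularGroup.S * ModularGroup.T) * γ ∈ Gamma0 N →
      (3 : ℤ) ∣ W γ)
    (γ : SL(2, ℤ)) (h : ℕ) (hγ : γ⁻¹ * (ModularGroup.S * ModularGroup.T) ^ h * γ ∈ Gamma0 N) :
    ((3 : ℕ) : ℤ) ∣ h * W γ :=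
  w_dvd_of_fixed N (ModularGroup.S * ModularGroup.T) 3 Nat.prime_three (ST_cube_smul N) W
    (fun γ hγ => by exact_mod_cast hfix γ hγ) γ h hγ

variable {N : ℕ} [NeZero N] {x : F}

theorem nFibre_generic_of_model (hx : IsFF1 K F x)
    (hdeg : Module.finrank K⟮x⟯ F = dedekindPsi N) (a : K)
    (M : Model K F N (x - algebraMap K F a) 1 1) : nFibre x a = dedekindPsi N := by
  haveI := finite_quotient_Gamma0 N
  have hy : IsFF1 K F (x - algebraMap K F a) :=
    isFF1_of_transcendental hx _ (transcendental_sub_algebraMap hx.transcendental a)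
  have h := M.card_zeros one_pos hy
    (by rw [finrank_adjoin_sub_algebraMap, hdeg, card_quotient])
  exact (h.trans (@card_orbits_one SL(2, ℤ) (SL(2, ℤ) ⧸ Gamma0 N) _ _)).trans (card_quotient N)

theorem nFibre_zero_of_model (hx : IsFF1 K F x)
    (hdeg : Module.finrank K⟮x⟯ F = dedekindPsi N)
    (M : Model K F N (x - algebraMap K F 0) 3 (ModularGroup.S * ModularGroup.T)) :
    3 * nFibre x (0 : K) = dedekindPsi N + 2 * nuThree N := by
  haveI := finite_quotient_Gamma0 N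
  have hy : IsFF1 K F (x - algebraMap K F 0) :=
    isFF1_of_transcendental hx _ (transcendental_sub_algebraMap hx.transcendental 0)
  have h := M.card_zeros (by norm_num) hy
    (by rw [finrank_adjoin_sub_algebraMap, hdeg, card_quotient])
  have h2 := card_orbits_prime (X := SL(2, ℤ) ⧸ Gamma0 N) (ModularGroup.S * ModularGroup.T) 3
    Nat.prime_three (ST_cube_smul N)
  rw [card_quotient, card_fixedBy_ST] at h2
  have h3 : nFibre x (0 : K) = _ := h
  rw [h3]
  exact h2

theorem nFibre_1728_of_model (hx : IsFF1 K F x)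
    (hdeg : Module.finrank K⟮x⟯ F = dedekindPsi N)
    (M : Model K F N (x - algebraMap K F 1728) 2 ModularGroup.S) :
    2 * nFibre x (1728 : K) = dedekindPsi N + nuTwo N := by
  haveI := finite_quotient_Gamma0 N
  have hy : IsFF1 K F (x - algebraMap K F 1728) :=
    isFF1_of_transcendental hx _ (transcendental_sub_algebraMap hx.transcendental 1728)
  have h := M.card_zeros (by norm_num) hy
    (by rw [finrank_adjoin_sub_algebraMap, hdeg, card_quotient])
  have h2 := card_orbits_prime (X := SL(2, ℤ) ⧸ Gamma0 N) ModularGroup.S 2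
    Nat.prime_two (S_sq_smul N)
  rw [card_quotient, card_fixedBy_S] at h2
  have h3 : nFibre x (1728 : K) = _ := h
  rw [h3]
  refine h2.trans ?_
  norm_num

theorem nPoles_of_model (hx : IsFF1 K F x)
    (hdeg : Module.finrank K⟮x⟯ F = dedekindPsi N)
    (M : Model K F N x⁻¹ N ModularGroup.T) :
    nPoles (K := K) x = cuspCount N := by
  haveI := finite_quotient_Gamma0 N
  have hy : IsFF1 K F x⁻¹ :=
    isFF1_of_transcendental hx _ (transcendental_inv hx.transcendental)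
  have h := M.card_zeros (Nat.pos_of_ne_zero (NeZero.ne N)) hy
    (by rw [finrank_adjoin_inv, hdeg, card_quotient])
  have h3 := h.trans (card_orbits_T N)
  rw [nPoles, ← h3]
  apply Nat.card_congr
  exact Equiv.subtypeEquivRight (fun v => by rw [Place.ord_inv]; omega)

end Fermat.Agent.Lib.ModC
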