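import Mathlib
import Fermat.Agent.Lib.FunctionField.OrdPlace

/-!
# Order functions on a domain extend to the fraction field (item 68, block C-Hol)
-/

set_option autoImplicit false
set_option linter.unusedSectionVars false

namespace Fermat.Agent.Lib.ModC

open Fermat.Agent.Lib.FF

variable {R L : Type*} [CommRing R] [IsDomain R] [Field L] [Algebra R L] [IsFractionRing R L]

/-- An integer-valued order function on a domain. -/
structure IsOrdFunOn (o : R → ℤ) : Prop where
  mul : ∀ a b : R, a ≠ 0 → b ≠ 0 → o (a * b) = o a + o b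
  add : ∀ a b : R, a ≠ 0 → b ≠ 0 → a + b ≠ 0 → min (o a) (o b) ≤ o (a + b)

variable (L) in
/-- The extension of an order function to the fraction field: `o (a / b) = o a - o b`
(and the value `0` at `0`). -/
noncomputable def fracOrd (o : R → ℤ) (x : L) : ℤ :=
  letI := Classical.propDecidable
  if x = 0 then 0 else
    o (IsLocalization.sec (nonZeroDivisors R) x).1 - o (IsLocalization.sec (nonZeroDivisors R) x).2

theorem fracOrd_zero (o : R → ℤ) : fracOrd L o 0 = 0 := by
  rw [fracOrd, if_pos rfl]

theorem fracOrd_div {o : R → ℤ} (ho : IsOrdFunOn o) {a b : R} (ha : a ≠ 0) (hb : b ≠ 0) :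
    fracOrd L o (algebraMap R L a / algebraMap R L b) = o a - o b := by
  set x : L := algebraMap R L a / algebraMap R L b with hx
  have hinj := IsFractionRing.injective R L
  have hbL : algebraMap R L b ≠ 0 := fun h => hb (hinj (by rw [h, map_zero]))
  have haL : algebraMap R L a ≠ 0 := fun h => ha (hinj (by rw [h, map_zero]))
  have hspec := IsLocalization.sec_spec (nonZeroDivisors R) x
  set a' := (IsLocalization.sec (nonZeroDivisors R) x).1 with ha'
  set b' := (IsLocalization.sec (nonZeroDivisors R) x).2 with hb'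
  have hb'0 : (b' : R) ≠ 0 := nonZeroDivisors.coe_ne_zero b'
  have hb'L : algebraMap R L (b' : R) ≠ 0 := fun h => hb'0 (hinj (by rw [h, map_zero]))
  have hx0 : x ≠ 0 := div_ne_zero haL hbL
  have ha'0 : a' ≠ 0 := by
    intro h
    rw [h, map_zero] at hspec
    exact (mul_ne_zero hx0 hb'L) hspec
  have hkey : a * (b' : R) = a' * b := by
    apply hinj
    rw [map_mul, map_mul, ← hspec, hx]
    field_simp
  have h1 := ho.mul a b' ha hb'0
  have h2 := ho.mul a' b ha'0 hb
  rw [hkey] at h1
  rw [fracOrd, if_neg hx0]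
  show o a' - o (b' : R) = o a - o b
  linarith

theorem fracOrd_algebraMap {o : R → ℤ} (ho : IsOrdFunOn o) {a : R} (ha : a ≠ 0) :
    fracOrd L o (algebraMap R L a) = o a := by
  have h1 : o (1 : R) = 0 := by
    have := ho.mul 1 1 one_ne_zero one_ne_zero
    rw [mul_one] at this
    linarith
  have := fracOrd_div (L := L) ho ha one_ne_zero
  rwa [map_one, div_one, h1, sub_zero] at this

theorem exists_eq_div (x : L) (hx : x ≠ 0) :
    ∃ a b : R, a ≠ 0 ∧ b ≠ 0 ∧ x = algebraMap R L a / algebraMap R L b := by
  obtain ⟨a, b, hb, rfl⟩ := IsFractionRing.div_surjective (A := R) x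
  have hb0 : b ≠ 0 := nonZeroDivisors.ne_zero hb
  refine ⟨a, b, ?_, hb0, rfl⟩
  rintro rfl
  simp at hx

theorem isOrdFun_fracOrd {o : R → ℤ} (ho : IsOrdFunOn o) : IsOrdFun (fracOrd L o) where
  mul x y hx hy := by
    obtain ⟨a, b, ha, hb, rfl⟩ := exists_eq_div (R := R) x hx
    obtain ⟨c, d, hc, hd, rfl⟩ := exists_eq_div (R := R) y hy
    have e : algebraMap R L a / algebraMap R L b * (algebraMap R L c / algebraMap R L d) =
        algebraMap R L (a * c) / algebraMap R L (b * d) := by
      rw [map_mul, map_mul, div_mul_div_comm]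
    rw [e, fracOrd_div ho (mul_ne_zero ha hc) (mul_ne_zero hb hd), fracOrd_div ho ha hb,
      fracOrd_div ho hc hd, ho.mul a c ha hc, ho.mul b d hb hd]
    ring
  add x y hx hy hxy := by
    obtain ⟨a, b, ha, hb, rfl⟩ := exists_eq_div (R := R) x hx
    obtain ⟨c, d, hc, hd, rfl⟩ := exists_eq_div (R := R) y hy
    have hinj := IsFractionRing.injective R L
    have hbL : algebraMap R L b ≠ 0 := fun h => hb (hinj (by rw [h, map_zero]))
    have hdL : algebraMap R L d ≠ 0 := fun h => hd (hinj (by rw [h, map_zero]))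
    have e : algebraMap R L a / algebraMap R L b + algebraMap R L c / algebraMap R L d =
        algebraMap R L (a * d + c * b) / algebraMap R L (b * d) := by
      rw [map_add, map_mul, map_mul, map_mul]
      field_simp
    have hne : a * d + c * b ≠ 0 := by
      intro h
      rw [e, h, map_zero, zero_div] at hxy
      exact hxy rfl
    rw [e, fracOrd_div ho hne (mul_ne_zero hb hd), fracOrd_div ho ha hb, fracOrd_div ho hc hd,
      ho.mul b d hb hd]
    have h1 := ho.add (a * d) (c * b) (mul_ne_zero ha hd) (mul_ne_zero hc hb) hne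
    rw [ho.mul a d ha hd, ho.mul c b hc hb] at h1
    rcases min_cases (o a - o b) (o c - o d) with ⟨h, _⟩ | ⟨h, _⟩ <;>
    rcases min_cases (o a + o d) (o c + o b) with ⟨h', _⟩ | ⟨h', _⟩ <;>
    rw [h] <;> rw [h'] at h1 <;> linarith

end Fermat.Agent.Lib.ModC
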