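import Mathlib
import Fermat.Agent.Lib.ModC.OrdFrac

/-!
# Holomorphic and meromorphic functions on the upper half plane (item 68, block C-Hol, part 1)

* `Hol`: the ring of holomorphic functions on `ℍ` (a domain);
* `Mer := FractionRing Hol`;
* `ordAt z₀ : Mer → ℤ`, an order function (`isOrdFun_ordAt`).
-/

set_option autoImplicit false
set_option linter.unusedSectionVars false

open UpperHalfPlane Complex Filter Topology
open scoped Manifold MatrixGroups

namespace Fermat.Agent.Lib.ModC

open Fermat.Agent.Lib.FF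

/-- The ring of holomorphic functions on the upper half plane. -/
def Hol : Subring (ℍ → ℂ) where
  carrier := {f | MDiff f}
  mul_mem' := fun hf hg => hf.mul hg
  one_mem' := mdifferentiable_const
  add_mem' := fun hf hg => hf.add hg
  zero_mem' := mdifferentiable_const
  neg_mem' := fun hf => hf.neg

theorem mem_Hol {f : ℍ → ℂ} : f ∈ Hol ↔ MDiff f := Iff.rfl

theorem mdiff_of_Hol (f : Hol) : MDiff (f : ℍ → ℂ) := f.2

instance : IsDomain Hol := by
  have : NoZeroDivisors Hol := by
    refine ⟨fun {f g} h => ?_⟩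
    have h' : (f : ℍ → ℂ) * (g : ℍ → ℂ) = 0 := congrArg Subtype.val h
    rcases (UpperHalfPlane.mul_eq_zero_iff f.2 g.2).mp h' with h1 | h1
    · exact Or.inl (Subtype.ext h1)
    · exact Or.inr (Subtype.ext h1)
  exact NoZeroDivisors.to_isDomain _

/-- The field of meromorphic functions on the upper half plane. -/
abbrev Mer : Type := FractionRing Hol

/-- The extension of a holomorphic function on `ℍ` to a function on `ℂ`. -/
noncomputable def holExt (f : Hol) : ℂ → ℂ := fun w => (f : ℍ → ℂ) (ofComplex w)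

@[simp]
theorem holExt_coe (f : Hol) (z : ℍ) : holExt f (z : ℂ) = (f : ℍ → ℂ) z := by
  rw [holExt, ofComplex_apply]

theorem holExt_mul (f g : Hol) : holExt (f * g) = holExt f * holExt g := rfl

theorem holExt_add (f g : Hol) : holExt (f + g) = holExt f + holExt g := rfl

theorem holExt_neg (f : Hol) : holExt (-f) = -holExt f := rfl

theorem holExt_one : holExt (1 : Hol) = 1 := rfl

theorem holExt_zero : holExt (0 : Hol) = 0 := rfl

theorem differentiableOn_holExt (f : Hol) : DifferentiableOn ℂ (holExt f) {z : ℂ | 0 < z.im} :=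
  mdifferentiable_iff.mp f.2

theorem analyticOnNhd_holExt (f : Hol) : AnalyticOnNhd ℂ (holExt f) {z : ℂ | 0 < z.im} :=
  (differentiableOn_holExt f).analyticOnNhd isOpen_upperHalfPlaneSet

theorem analyticAt_holExt (f : Hol) (z : ℍ) : AnalyticAt ℂ (holExt f) (z : ℂ) :=
  analyticOnNhd_holExt f _ z.im_pos

theorem analyticOrderAt_holExt_ne_top (f : Hol) (hf : f ≠ 0) (z : ℍ) :
    analyticOrderAt (holExt f) (z : ℂ) ≠ ⊤ := by
  intro htop
  apply hf
  rw [analyticOrderAt_eq_top] at htop
  have hpre : IsPreconnected {z : ℂ | 0 < z.im} :=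
    (Complex.isConnected_of_upperHalfPlane (r := 0) subset_rfl
      (fun z (hz : 0 < z.im) => hz.le)).isPreconnected
  have := (analyticOnNhd_holExt f).eqOn_zero_of_preconnected_of_eventuallyEq_zero hpre z.im_pos htop
  ext w
  have h := this w.im_pos
  rwa [holExt_coe] at h

/-- The order of vanishing of a holomorphic function at a point. -/
noncomputable def holOrd (z₀ : ℍ) (f : Hol) : ℤ := (analyticOrderNatAt (holExt f) (z₀ : ℂ) : ℤ)

theorem holOrd_nonneg (z₀ : ℍ) (f : Hol) : 0 ≤ holOrd z₀ f := Int.natCast_nonneg _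

theorem cast_holOrd (z₀ : ℍ) (f : Hol) (hf : f ≠ 0) :
    ((analyticOrderNatAt (holExt f) (z₀ : ℂ) : ℕ) : ℕ∞) = analyticOrderAt (holExt f) (z₀ : ℂ) :=
  Nat.cast_analyticOrderNatAt (analyticOrderAt_holExt_ne_top f hf z₀)

theorem isOrdFunOn_holOrd (z₀ : ℍ) : IsOrdFunOn (holOrd z₀) where
  mul f g hf hg := by
    rw [holOrd, holOrd, holOrd, holExt_mul,
      analyticOrderNatAt_mul (analyticAt_holExt f z₀) (analyticAt_holExt g z₀)
        (analyticOrderAt_holExt_ne_top f hf z₀) (analyticOrderAt_holExt_ne_top g hg z₀)]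
    push_cast
    rfl
  add f g hf hg hfg := by
    have h := le_analyticOrderAt_add (f := (holExt f)) (g := (holExt g)) (z₀ := (z₀ : ℂ))
    rw [← holExt_add, ← cast_holOrd z₀ f hf, ← cast_holOrd z₀ g hg,
      ← cast_holOrd z₀ (f + g) hfg] at h
    rw [holOrd, holOrd, holOrd]
    have h' : min (analyticOrderNatAt (holExt f) (z₀ : ℂ)) (analyticOrderNatAt (holExt g) (z₀ : ℂ)) ≤
        analyticOrderNatAt (holExt (f + g)) (z₀ : ℂ) := by
      rcases le_total (analyticOrderNatAt (holExt f) (z₀ : ℂ))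
        (analyticOrderNatAt (holExt g) (z₀ : ℂ)) with hle | hle
      · rw [min_eq_left (by exact_mod_cast hle)] at h
        rw [min_eq_left hle]
        exact_mod_cast h
      · rw [min_eq_right (by exact_mod_cast hle)] at h
        rw [min_eq_right hle]
        exact_mod_cast h
    exact_mod_cast h'

/-- The order of a meromorphic function at a point of `ℍ`. -/
noncomputable def ordAt (z₀ : ℍ) : Mer → ℤ := fracOrd Mer (holOrd z₀)

theorem isOrdFun_ordAt (z₀ : ℍ) : IsOrdFun (ordAt z₀) := isOrdFun_fracOrd (isOrdFunOn_holOrd z₀)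

theorem ordAt_zero (z₀ : ℍ) : ordAt z₀ 0 = 0 := fracOrd_zero _

theorem ordAt_algebraMap (z₀ : ℍ) {f : Hol} (hf : f ≠ 0) :
    ordAt z₀ (algebraMap Hol Mer f) = holOrd z₀ f :=
  fracOrd_algebraMap (isOrdFunOn_holOrd z₀) hf

theorem ordAt_div (z₀ : ℍ) {f g : Hol} (hf : f ≠ 0) (hg : g ≠ 0) :
    ordAt z₀ (algebraMap Hol Mer f / algebraMap Hol Mer g) = holOrd z₀ f - holOrd z₀ g :=
  fracOrd_div (isOrdFunOn_holOrd z₀) hf hg

theorem holOrd_eq_zero_iff (z₀ : ℍ) (f : Hol) : holOrd z₀ f = 0 ↔ (f : ℍ → ℂ) z₀ ≠ 0 ∨ f = 0 := by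
  by_cases hf : f = 0
  · subst hf
    have : analyticOrderAt (0 : ℂ → ℂ) (z₀ : ℂ) = ⊤ := by
      rw [analyticOrderAt_eq_top]
      exact Eventually.of_forall fun _ => rfl
    constructor
    · intro _
      exact Or.inr rfl
    · intro _
      rw [holOrd, holExt_zero, analyticOrderNatAt, this]
      rfl
  · have h1 := cast_holOrd z₀ f hf
    have h2 := (analyticAt_holExt f z₀).analyticOrderAt_eq_zero
    rw [holExt_coe] at h2
    simp only [hf, or_false]
    rw [← h2, ← h1, holOrd]
    norm_cast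

end Fermat.Agent.Lib.ModC
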