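import Mathlib
import Fermat.Agent.Lib.ModC.Hol

/-!
# The action of `SL(2,ℤ)` on holomorphic and meromorphic functions on `ℍ`
(item 68, block C-Hol, part 2)

`(holAct γ f) z = f (γ⁻¹ • z)`, `merAct γ` its extension to `Mer`, and
`ordAt z₀ (merAct γ u) = ordAt (γ⁻¹ • z₀) u`.
-/

set_option autoImplicit false
set_option linter.unusedSectionVars false

open UpperHalfPlane Complex Filter Topology
open scoped Manifold MatrixGroups

namespace Fermat.Agent.Lib.ModC

open Fermat.Agent.Lib.FF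

theorem det_mapGL_pos (γ : SL(2, ℤ)) : 0 < (Matrix.SpecialLinearGroup.mapGL ℝ γ).val.det := by
  have h : 0 < (Matrix.SpecialLinearGroup.mapGL ℝ γ).det.val := by simp
  exact h

theorem mdiff_smul_SL (γ : SL(2, ℤ)) : MDiff (fun τ : ℍ ↦ γ • τ) :=
  mdifferentiable_smul (det_mapGL_pos γ)

/-- precomposition with `γ⁻¹`, as a ring homomorphism -/
noncomputable def holActHom (γ : SL(2, ℤ)) : Hol →+* Hol where
  toFun f := ⟨fun z => (f : ℍ → ℂ) (γ⁻¹ • z), f.2.comp (mdiff_smul_SL γ⁻¹)⟩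
  map_one' := rfl
  map_mul' _ _ := rfl
  map_zero' := rfl
  map_add' _ _ := rfl

@[simp]
theorem holActHom_apply (γ : SL(2, ℤ)) (f : Hol) (z : ℍ) :
    (holActHom γ f : ℍ → ℂ) z = (f : ℍ → ℂ) (γ⁻¹ • z) := rfl

theorem holActHom_mul (γ δ : SL(2, ℤ)) (f : Hol) :
    holActHom (γ * δ) f = holActHom γ (holActHom δ f) := by
  ext z
  simp only [holActHom_apply, mul_inv_rev, mul_smul]

theorem holActHom_one (f : Hol) : holActHom 1 f = f := by
  ext z
  simp

/-- The action of `γ ∈ SL(2,ℤ)` on `Hol`: `(γ • f) z = f (γ⁻¹ • z)`. -/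
noncomputable def holAct (γ : SL(2, ℤ)) : Hol ≃+* Hol :=
  RingEquiv.ofRingHom (holActHom γ) (holActHom γ⁻¹)
    (by ext f z; simp [← mul_smul])
    (by ext f z; simp [← mul_smul])

@[simp]
theorem holAct_apply (γ : SL(2, ℤ)) (f : Hol) (z : ℍ) :
    (holAct γ f : ℍ → ℂ) z = (f : ℍ → ℂ) (γ⁻¹ • z) := rfl

theorem holAct_mul (γ δ : SL(2, ℤ)) (f : Hol) : holAct (γ * δ) f = holAct γ (holAct δ f) :=
  holActHom_mul γ δ f

theorem holAct_one (f : Hol) : holAct 1 f = f := holActHom_one f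

/-- The action of `γ ∈ SL(2,ℤ)` on `Mer`. -/
noncomputable def merAct (γ : SL(2, ℤ)) : Mer ≃+* Mer :=
  IsFractionRing.ringEquivOfRingEquiv (holAct γ)

@[simp]
theorem merAct_algebraMap (γ : SL(2, ℤ)) (f : Hol) :
    merAct γ (algebraMap Hol Mer f) = algebraMap Hol Mer (holAct γ f) :=
  IsFractionRing.ringEquivOfRingEquiv_algebraMap (holAct γ) f

theorem merAct_mul (γ δ : SL(2, ℤ)) (u : Mer) : merAct (γ * δ) u = merAct γ (merAct δ u) := by
  obtain ⟨a, b, hb, rfl⟩ := IsFractionRing.div_surjective (A := Hol) u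
  simp only [map_div₀, merAct_algebraMap, holAct_mul]

theorem merAct_one (u : Mer) : merAct 1 u = u := by
  obtain ⟨a, b, hb, rfl⟩ := IsFractionRing.div_surjective (A := Hol) u
  simp only [map_div₀, merAct_algebraMap, holAct_one]

theorem merAct_inv_merAct (γ : SL(2, ℤ)) (u : Mer) : merAct γ⁻¹ (merAct γ u) = u := by
  rw [← merAct_mul, inv_mul_cancel, merAct_one]

theorem holExt_holAct (γ : SL(2, ℤ)) (f : Hol) :
    holExt (holAct γ f) =
      holExt f ∘ (fun w : ℂ => ((Matrix.SpecialLinearGroup.mapGL ℝ γ⁻¹ • ofComplex w : ℍ) : ℂ)) := by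
  ext w
  simp only [holExt, Function.comp_apply, holAct_apply, ofComplex_apply]
  rfl

theorem holOrd_holAct (z₀ : ℍ) (γ : SL(2, ℤ)) (f : Hol) :
    holOrd z₀ (holAct γ f) = holOrd (γ⁻¹ • z₀) f := by
  rw [holOrd, holOrd, holExt_holAct, analyticOrderNatAt, analyticOrderNatAt,
    analyticOrderAt_comp_of_deriv_ne_zero (UpperHalfPlane.analyticAt_smul (det_mapGL_pos γ⁻¹) z₀)
      (UpperHalfPlane.deriv_smul_ne_zero (det_mapGL_pos γ⁻¹) z₀)]
  simp only [ofComplex_apply]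
  rfl

theorem ordAt_merAct (z₀ : ℍ) (γ : SL(2, ℤ)) (u : Mer) :
    ordAt z₀ (merAct γ u) = ordAt (γ⁻¹ • z₀) u := by
  by_cases hu : u = 0
  · subst hu
    rw [map_zero, ordAt_zero, ordAt_zero]
  · obtain ⟨a, b, ha, hb, rfl⟩ := exists_eq_div (R := Hol) u hu
    have ha' : holAct γ a ≠ 0 := (map_ne_zero_iff _ (holAct γ).injective).mpr ha
    have hb' : holAct γ b ≠ 0 := (map_ne_zero_iff _ (holAct γ).injective).mpr hb
    rw [map_div₀, merAct_algebraMap, merAct_algebraMap, ordAt_div z₀ ha' hb',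
      ordAt_div _ ha hb, holOrd_holAct, holOrd_holAct]

end Fermat.Agent.Lib.ModC
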