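import Mathlib
import Fermat.Agent.Lib.ModC.HolAct
import Fermat.Agent.Lib.ModJ.Distinct
import Fermat.Agent.Lib.ModJ.Surj

/-!
# The functions `j(d z)` as elements of `Hol` (item 68, block C-Hol, part 3)
-/

set_option autoImplicit false
set_option linter.unusedSectionVars false

open UpperHalfPlane Complex Filter Topology CongruenceSubgroup
open scoped Manifold MatrixGroups

namespace Fermat.Agent.Lib.ModC

open Fermat.Agent.Lib.FF Fermat.Agent.Lib.ModJ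

theorem jFunD_mdiff (d : ℕ+) : MDiff (jFunD d) := by
  rw [mdifferentiable_iff]
  have h1 : DifferentiableOn ℂ (fun w : ℂ => jC (((d : ℕ) : ℂ) * w)) {z : ℂ | 0 < z.im} := by
    refine jC_differentiableOn.comp (f := fun w : ℂ => ((d : ℕ) : ℂ) * w)
      ((differentiable_id.const_mul _).differentiableOn) ?_
    intro w hw
    have h1 : (0 : ℝ) < ((d : ℕ) : ℝ) := by exact_mod_cast d.pos
    show 0 < (((d : ℕ) : ℂ) * w).im
    have : (((d : ℕ) : ℂ) * w).im = ((d : ℕ) : ℝ) * w.im := by simp [Complex.mul_im]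
    rw [this]
    exact mul_pos h1 hw
  refine h1.congr ?_
  intro w hw
  show jFunD d (ofComplex w) = jC (((d : ℕ) : ℂ) * w)
  rw [jFunD, ← jC_coe, coe_pnatSMul, ofComplex_apply_of_im_pos hw]

/-- `z ↦ j(d z)` as a holomorphic function -/
noncomputable def jHol (d : ℕ+) : Hol := ⟨jFunD d, jFunD_mdiff d⟩

@[simp]
theorem jHol_apply (d : ℕ+) (z : ℍ) : (jHol d : ℍ → ℂ) z = jFunD d z := rfl

/-- constant functions -/
noncomputable def constHol : ℂ →+* Hol where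
  toFun c := ⟨fun _ => c, mdifferentiable_const⟩
  map_one' := rfl
  map_mul' _ _ := rfl
  map_zero' := rfl
  map_add' _ _ := rfl

@[simp]
theorem constHol_apply (c : ℂ) (z : ℍ) : (constHol c : ℍ → ℂ) z = c := rfl

theorem holAct_constHol (γ : SL(2, ℤ)) (c : ℂ) : holAct γ (constHol c) = constHol c := by
  ext z
  rfl

theorem constHol_injective : Function.Injective constHol := by
  intro a b h
  have := congrArg (fun f : Hol => (f : ℍ → ℂ) UpperHalfPlane.I) h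
  exact this

theorem holOrd_constHol (z₀ : ℍ) {c : ℂ} (hc : c ≠ 0) : holOrd z₀ (constHol c) = 0 := by
  rw [holOrd_eq_zero_iff]
  exact Or.inl hc

/-- the matrix `[[a, d b], [c / d, e]]` for `[[a, b], [c, e]] ∈ Γ₀(N)`, `d ∣ N` -/
theorem exists_conj_of_mem_Gamma0 {N : ℕ} (d : ℕ+) (hd : (d : ℕ) ∣ N) (g : SL(2, ℤ))
    (hg : g ∈ Gamma0 N) :
    ∃ δ : SL(2, ℤ), ((d : ℕ) : ℤ) * g 0 0 = δ 0 0 * (d : ℕ) ∧
      ((d : ℕ) : ℤ) * g 0 1 = δ 0 0 * (0 : ℕ) + δ 0 1 * (1 : ℕ) ∧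
      g 1 0 = δ 1 0 * (d : ℕ) ∧ g 1 1 = δ 1 0 * (0 : ℕ) + δ 1 1 * (1 : ℕ) := by
  have hN : ((N : ℤ)) ∣ g 1 0 := by
    rw [Gamma0_mem] at hg
    exact (ZMod.intCast_zmod_eq_zero_iff_dvd _ _).mp hg
  have hdN : ((d : ℕ) : ℤ) ∣ g 1 0 := (Int.natCast_dvd_natCast.mpr hd).trans hN
  obtain ⟨c', hc'⟩ := hdN
  have hdet := Matrix.SpecialLinearGroup.det_coe g
  rw [Matrix.det_fin_two] at hdet
  refine ⟨⟨!![g 0 0, (d : ℕ) * g 0 1; c', g 1 1], ?_⟩, ?_, ?_, ?_, ?_⟩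
  · rw [Matrix.det_fin_two_of]
    rw [hc'] at hdet
    linarith
  · show ((d : ℕ) : ℤ) * g 0 0 = g 0 0 * (d : ℕ)
    ring
  · show ((d : ℕ) : ℤ) * g 0 1 = g 0 0 * (0 : ℕ) + ((d : ℕ) * g 0 1) * (1 : ℕ)
    push_cast
    ring
  · show g 1 0 = c' * (d : ℕ)
    rw [hc']
    ring
  · show g 1 1 = c' * (0 : ℕ) + g 1 1 * (1 : ℕ)
    push_cast
    ring

theorem affH_eq_pnatSMul (d : ℕ+) (z : ℍ) :
    affH (d : ℕ) 0 1 d.pos Nat.one_pos z = pnatSMul d z := by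
  apply UpperHalfPlane.ext
  rw [coe_affH, coe_pnatSMul]
  simp

/-- `j(d z)` is invariant under `Γ₀(N)` for `d ∣ N`. -/
theorem jFunD_smul_of_mem_Gamma0_dvd {N : ℕ} (d : ℕ+) (hd : (d : ℕ) ∣ N) (g : SL(2, ℤ))
    (hg : g ∈ Gamma0 N) (z : ℍ) : jFunD d (g • z) = jFunD d z := by
  obtain ⟨δ, h00, h01, h10, h11⟩ := exists_conj_of_mem_Gamma0 d hd g hg
  have := pnatSMul_smul_eq d g δ (d : ℕ) 0 1 d.pos Nat.one_pos h00 h01 h10 h11 z
  rw [jFunD, this, jFun_smul, affH_eq_pnatSMul]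
  rfl

theorem holAct_jHol_of_mem_Gamma0 {N : ℕ} (d : ℕ+) (hd : (d : ℕ) ∣ N) (g : SL(2, ℤ))
    (hg : g ∈ Gamma0 N) : holAct g (jHol d) = jHol d := by
  ext z
  rw [holAct_apply, jHol_apply, jHol_apply]
  exact jFunD_smul_of_mem_Gamma0_dvd d hd g⁻¹ (inv_mem hg) z

end Fermat.Agent.Lib.ModC
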