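import Mathlib
import Fermat.Prelude.Def_ModularCurve_ArithmeticGalois
import Fermat.Agent.Lib.ModJ.QExpKernel

/-!
# Item 68 (S24), block (C): lifting ring homomorphisms to the modular function field

`F = modularFunctionFieldBar N` is generated over `K = ℚ̄` by the `jq(q^d)`, `d ∣ N`.
A ring hom `φ` from the polynomial ring in these generators to a field `Ω` with the same kernel
as the evaluation at the generators extends uniquely to `F`.
-/

set_option autoImplicit false

noncomputable section

open IntermediateField

namespace Fermat.Agent.Lib.ModC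

open Fermat.Agent.Lib.ModJ

/-- index type of the generators: positive divisors of `N` -/
abbrev DivIdx (N : ℕ) : Type := {d : ℕ+ // (d : ℕ) ∣ N}

/-- the generators `jq(q^d)` over a field `K` -/
def gensK (K : Type*) [Field K] [Algebra ℚ K] (N : ℕ) (d : DivIdx N) : LaurentSeries K :=
  jqK K d.1

section General

variable {K : Type*} [Field K] [Algebra ℚ K]

theorem gensK_eq (N : ℕ) (d : DivIdx N) :
    gensK K N d = ModularCurve.coeffEmb K (ModularCurve.qExpand ℚ (d.1 : ℕ) ModularCurve.jq) := rfl

/-- the base change of `ℚ(jq(q^d) : d ∣ N)` is generated over `K` by the `jq(q^d)`. -/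
theorem laurentBaseChange_eq_adjoin (N : ℕ) :
    ModularCurve.laurentBaseChange K (ModularCurve.modularFunctionFieldFull N)
      = IntermediateField.adjoin K (Set.range (gensK K N)) := by
  apply le_antisymm
  · rw [ModularCurve.laurentBaseChange, IntermediateField.adjoin_le_iff]
    rintro _ ⟨x, hx, rfl⟩
    -- the preimage of the right-hand side under `coeffEmb` is a subfield containing the generators
    have hQ : ∀ q : ℚ, ModularCurve.coeffEmb K (algebraMap ℚ (LaurentSeries ℚ) q)
        ∈ (IntermediateField.adjoin K (Set.range (gensK K N))).toSubfield := by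
      intro q
      have : ModularCurve.coeffEmb K (algebraMap ℚ (LaurentSeries ℚ) q)
          = algebraMap K (LaurentSeries K) (algebraMap ℚ K q) := by
        rw [ModularCurve.algebraMap_apply_eq_single, ModularCurve.coeffEmb,
          ModularCurve.coeffMap_single, ModularCurve.algebraMap_laurentSeries_eq_single]
      rw [this]
      exact (IntermediateField.adjoin K (Set.range (gensK K N))).algebraMap_mem _
    have key : ModularCurve.modularFunctionFieldFull N ≤
        ((IntermediateField.adjoin K (Set.range (gensK K N))).toSubfield.comap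
          (ModularCurve.coeffEmb K)).toIntermediateField hQ := by
      rw [ModularCurve.modularFunctionFieldFull, IntermediateField.adjoin_le_iff]
      rintro _ ⟨d, hd0, hdN, rfl⟩
      show ModularCurve.coeffEmb K _ ∈ IntermediateField.adjoin K (Set.range (gensK K N))
      have hdpos : 0 < d := Nat.pos_of_ne_zero (NeZero.ne d)
      exact IntermediateField.subset_adjoin K _ ⟨⟨⟨d, hdpos⟩, hdN⟩, rfl⟩
    exact key hx
  · rw [IntermediateField.adjoin_le_iff]
    rintro _ ⟨d, rfl⟩
    have : NeZero (d.1 : ℕ) := ⟨d.1.pos.ne'⟩
    exact ModularCurve.coeffEmb_mem_laurentBaseChange K (ModularCurve.jqd_mem_full N d.2)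

end General

section Lift

open scoped IntermediateField.algebraAdjoinAdjoin

variable {K : Type*} [Field K] {ι : Type*} {E : Type*} [Field E] [Algebra K E] (gens : ι → E)
variable {Ω : Type*} [Field Ω]

theorem aeval_mem_adjoin (P : MvPolynomial ι K) :
    MvPolynomial.aeval gens P ∈ IntermediateField.adjoin K (Set.range gens) := by
  have h1 : MvPolynomial.aeval gens P ∈ Algebra.adjoin K (Set.range gens) := by
    rw [Algebra.adjoin_range_eq_range_aeval]
    exact ⟨P, rfl⟩
  exact IntermediateField.algebra_adjoin_le_adjoin K _ h1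

/-- **General lift.** A ring hom on polynomials with the same kernel as the evaluation at the
generators induces a ring hom on the field generated by the generators. -/
theorem exists_lift_adjoin (φ : MvPolynomial ι K →+* Ω)
    (hφ : ∀ P, φ P = 0 ↔ MvPolynomial.aeval gens P = 0) :
    ∃ τ : ↥(IntermediateField.adjoin K (Set.range gens)) →+* Ω,
      ∀ P : MvPolynomial ι K, τ ⟨MvPolynomial.aeval gens P, aeval_mem_adjoin gens P⟩ = φ P := by
  classical
  -- the surjection onto the subalgebra
  have hsurj : ∀ r : Algebra.adjoin K (Set.range gens),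
      ∃ P : MvPolynomial ι K, MvPolynomial.aeval gens P = (r : E) := by
    rintro ⟨r, hr⟩
    rw [Algebra.adjoin_range_eq_range_aeval] at hr
    exact hr
  choose sec hsec using hsurj
  have hwd : ∀ (P : MvPolynomial ι K) (r : Algebra.adjoin K (Set.range gens)),
      MvPolynomial.aeval gens P = (r : E) → φ P = φ (sec r) := by
    intro P r hP
    have : MvPolynomial.aeval gens (P - sec r) = 0 := by rw [map_sub, hP, hsec, sub_self]
    have := (hφ _).mpr this
    rw [map_sub] at this
    exact sub_eq_zero.mp this
  let g : Algebra.adjoin K (Set.range gens) →+* Ω :=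
    { toFun := fun r => φ (sec r)
      map_one' := by
        rw [← hwd 1 1 (by simp), map_one]
      map_mul' := fun r s => by
        rw [← hwd (sec r * sec s) (r * s) (by simp [hsec]), map_mul]
      map_zero' := by
        rw [← hwd 0 0 (by simp), map_zero]
      map_add' := fun r s => by
        rw [← hwd (sec r + sec s) (r + s) (by simp [hsec]), map_add] }
  have hginj : Function.Injective g := by
    rw [injective_iff_map_eq_zero]
    intro r hr
    have h1 : φ (sec r) = 0 := hr
    have h2 := (hφ _).mp h1
    rw [hsec] at h2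
    exact Subtype.ext h2
  refine ⟨IsFractionRing.lift hginj, fun P => ?_⟩
  have hP : MvPolynomial.aeval gens P ∈ Algebra.adjoin K (Set.range gens) := by
    rw [Algebra.adjoin_range_eq_range_aeval]
    exact ⟨P, rfl⟩
  have e : (⟨MvPolynomial.aeval gens P, aeval_mem_adjoin gens P⟩ :
      ↥(IntermediateField.adjoin K (Set.range gens)))
      = algebraMap (Algebra.adjoin K (Set.range gens))
          (IntermediateField.adjoin K (Set.range gens)) ⟨MvPolynomial.aeval gens P, hP⟩ := rfl
  rw [e, IsFractionRing.lift_algebraMap]
  exact (hwd P ⟨_, hP⟩ rfl).symm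

/-- two ring homs on the generated field which agree on the polynomial expressions are equal -/
theorem ringHom_ext_adjoin (τ τ' : ↥(IntermediateField.adjoin K (Set.range gens)) →+* Ω)
    (h : ∀ P : MvPolynomial ι K, τ ⟨MvPolynomial.aeval gens P, aeval_mem_adjoin gens P⟩
      = τ' ⟨MvPolynomial.aeval gens P, aeval_mem_adjoin gens P⟩) : τ = τ' := by
  have hcomp : τ.comp (algebraMap (Algebra.adjoin K (Set.range gens))
        (IntermediateField.adjoin K (Set.range gens)))
      = τ'.comp (algebraMap (Algebra.adjoin K (Set.range gens))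
        (IntermediateField.adjoin K (Set.range gens))) := by
    ext ⟨r, hr⟩
    have hr' := hr
    rw [Algebra.adjoin_range_eq_range_aeval] at hr'
    obtain ⟨P, rfl⟩ := hr'
    exact h P
  exact IsLocalization.ringHom_ext (nonZeroDivisors (Algebra.adjoin K (Set.range gens))) hcomp

end Lift

section Modular

variable {K : Type*} [Field K] [Algebra ℚ K] {Ω : Type*} [Field Ω]

theorem aeval_gensK_mem (N : ℕ) (P : MvPolynomial (DivIdx N) K) :
    MvPolynomial.aeval (gensK K N) P
      ∈ ModularCurve.laurentBaseChange K (ModularCurve.modularFunctionFieldFull N) := by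
  rw [laurentBaseChange_eq_adjoin]
  exact aeval_mem_adjoin _ P

/-- the polynomial expression in the generators, as an element of the function field -/
def aevalF (N : ℕ) (P : MvPolynomial (DivIdx N) K) :
    ↥(ModularCurve.laurentBaseChange K (ModularCurve.modularFunctionFieldFull N)) :=
  ⟨MvPolynomial.aeval (gensK K N) P, aeval_gensK_mem N P⟩

@[simp] theorem coe_aevalF (N : ℕ) (P : MvPolynomial (DivIdx N) K) :
    ((aevalF N P : ↥(ModularCurve.laurentBaseChange K (ModularCurve.modularFunctionFieldFull N)))
      : LaurentSeries K) = MvPolynomial.aeval (gensK K N) P := rfl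

theorem aevalF_C (N : ℕ) (c : K) :
    aevalF N (MvPolynomial.C c)
      = algebraMap K ↥(ModularCurve.laurentBaseChange K (ModularCurve.modularFunctionFieldFull N)) c := by
  apply Subtype.ext
  simp [aevalF]

theorem aevalF_add (N : ℕ) (P Q : MvPolynomial (DivIdx N) K) :
    aevalF N (P + Q) = aevalF N P + aevalF N Q := by
  apply Subtype.ext
  simp [aevalF]

theorem aevalF_mul (N : ℕ) (P Q : MvPolynomial (DivIdx N) K) :
    aevalF N (P * Q) = aevalF N P * aevalF N Q := by
  apply Subtype.ext
  simp [aevalF]

theorem aevalF_eq_zero_iff (N : ℕ) (P : MvPolynomial (DivIdx N) K) :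
    aevalF N P = 0 ↔ MvPolynomial.aeval (gensK K N) P = 0 := by
  constructor
  · intro h
    exact congrArg Subtype.val h
  · intro h
    exact Subtype.ext h

/-- every element of the function field is a quotient of polynomial expressions -/
theorem exists_aevalF_div (N : ℕ)
    (f : ↥(ModularCurve.laurentBaseChange K (ModularCurve.modularFunctionFieldFull N))) :
    ∃ P Q : MvPolynomial (DivIdx N) K, aevalF N Q ≠ 0 ∧ f * aevalF N Q = aevalF N P := by
  obtain ⟨f, hf⟩ := f
  have hf' := hf
  rw [laurentBaseChange_eq_adjoin, IntermediateField.mem_adjoin_iff_div] at hf'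
  obtain ⟨x, hx, y, hy, rfl⟩ := hf'
  rw [Algebra.adjoin_range_eq_range_aeval] at hx hy
  obtain ⟨P, rfl⟩ := hx
  obtain ⟨Q, rfl⟩ := hy
  by_cases hQ : MvPolynomial.aeval (gensK K N) Q = 0
  · refine ⟨0, 1, ?_, ?_⟩
    · rw [Ne, aevalF_eq_zero_iff]
      simp
    · apply Subtype.ext
      simp [aevalF, hQ]
  · refine ⟨P, Q, ?_, ?_⟩
    · rw [Ne, aevalF_eq_zero_iff]
      exact hQ
    · apply Subtype.ext
      show (MvPolynomial.aeval (gensK K N) P / MvPolynomial.aeval (gensK K N) Q)
        * MvPolynomial.aeval (gensK K N) Q = MvPolynomial.aeval (gensK K N) P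
      exact div_mul_cancel₀ _ hQ

/-- **Lift to the modular function field.** -/
theorem exists_lift (N : ℕ) (φ : MvPolynomial (DivIdx N) K →+* Ω)
    (hφ : ∀ P, φ P = 0 ↔ MvPolynomial.aeval (gensK K N) P = 0) :
    ∃ τ : ↥(ModularCurve.laurentBaseChange K (ModularCurve.modularFunctionFieldFull N)) →+* Ω,
      ∀ P : MvPolynomial (DivIdx N) K, τ (aevalF N P) = φ P := by
  obtain ⟨τ, hτ⟩ := exists_lift_adjoin (gensK K N) φ hφ
  refine ⟨τ.comp (IntermediateField.equivOfEq (laurentBaseChange_eq_adjoin (K := K) N)
    : _ →ₐ[K] _).toRingHom, fun P => ?_⟩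
  rw [← hτ P]
  rfl

/-- two ring homs on the function field which agree on polynomial expressions are equal -/
theorem ringHom_ext (N : ℕ)
    (τ τ' : ↥(ModularCurve.laurentBaseChange K (ModularCurve.modularFunctionFieldFull N)) →+* Ω)
    (h : ∀ P : MvPolynomial (DivIdx N) K, τ (aevalF N P) = τ' (aevalF N P)) : τ = τ' := by
  ext f
  obtain ⟨P, Q, hQ, hf⟩ := exists_aevalF_div N f
  have h1 : τ f * τ (aevalF N Q) = τ' f * τ' (aevalF N Q) := by
    rw [← map_mul, ← map_mul, hf, h P]
  rw [h Q] at h1
  have hQ' : τ' (aevalF N Q) ≠ 0 := (map_ne_zero τ').mpr hQ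
  exact mul_right_cancel₀ hQ' h1

end Modular

end Fermat.Agent.Lib.ModC
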