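import Mathlib
import Fermat.Agent.Lib.ModC.HolJ
import Fermat.Agent.Lib.ModC.Lift
import Fermat.Agent.S24.Top

/-!
# The analytic embeddings `tau N γ : F →+* Mer` (item 68, block C-Hol, part 4)

`embAn N : F →+* Mer` sends `jq(q^d)` to `z ↦ j(d z)` and a constant `c` to `ι c`;
`tau N γ = merAct γ ∘ embAn N`.
-/

set_option autoImplicit false
set_option linter.unusedSectionVars false

open UpperHalfPlane Complex Filter Topology CongruenceSubgroup
open scoped Manifold MatrixGroups

namespace Fermat.Agent.Lib.ModC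

open Fermat.Agent.Lib.FF Fermat.Agent.Lib.ModJ ModularCurve

local notation "Kbar" => AlgebraicClosure ℚ

/-- the polynomial expressions in the `j(d z)`, as holomorphic functions -/
noncomputable def evalHol (N : ℕ) : MvPolynomial (DivIdx N) Kbar →+* Hol :=
  MvPolynomial.eval₂Hom (constHol.comp iotaQbar) (fun d => jHol d.1)

theorem evalHol_apply (N : ℕ) (P : MvPolynomial (DivIdx N) Kbar) (z : ℍ) :
    (evalHol N P : ℍ → ℂ) z =
      MvPolynomial.eval₂ iotaQbar (fun d : DivIdx N => jFunD d.1 z) P := by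
  induction P using MvPolynomial.induction_on with
  | C a => simp [evalHol]
  | add p q hp hq =>
    rw [map_add, MvPolynomial.eval₂_add, ← hp, ← hq]
    rfl
  | mul_X p i hp =>
    rw [map_mul, MvPolynomial.eval₂_mul, MvPolynomial.eval₂_X, ← hp]
    simp [evalHol]

theorem evalHol_eq_zero_iff (N : ℕ) (P : MvPolynomial (DivIdx N) Kbar) :
    evalHol N P = 0 ↔ MvPolynomial.aeval (gensK Kbar N) P = 0 := by
  have h := aeval_jqK_eq_zero_iff iotaQbar (fun d : DivIdx N => d.1) P
  rw [show (MvPolynomial.aeval (gensK Kbar N) P = 0) ↔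
    (MvPolynomial.aeval (fun i : DivIdx N => jqK Kbar i.1) P = 0) from Iff.rfl, h]
  constructor
  · intro h0 z
    rw [← evalHol_apply, h0]
    rfl
  · intro h0
    ext z
    rw [evalHol_apply, h0]
    rfl

theorem holAct_evalHol (N : ℕ) (g : SL(2, ℤ)) (hg : g ∈ Gamma0 N)
    (P : MvPolynomial (DivIdx N) Kbar) : holAct g (evalHol N P) = evalHol N P := by
  induction P using MvPolynomial.induction_on with
  | C a =>
    simp only [evalHol, MvPolynomial.coe_eval₂Hom, MvPolynomial.eval₂_C, RingHom.comp_apply]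
    exact holAct_constHol g _
  | add p q hp hq => rw [map_add, map_add, hp, hq]
  | mul_X p i hp =>
    rw [map_mul, map_mul, hp]
    congr 1
    simp only [evalHol, MvPolynomial.coe_eval₂Hom, MvPolynomial.eval₂_X]
    exact holAct_jHol_of_mem_Gamma0 i.1 i.2 g hg

/-- the polynomial expressions in the `j(d z)`, as meromorphic functions -/
noncomputable def evalMer (N : ℕ) : MvPolynomial (DivIdx N) Kbar →+* Mer :=
  (algebraMap Hol Mer).comp (evalHol N)

theorem evalMer_eq_zero_iff (N : ℕ) (P : MvPolynomial (DivIdx N) Kbar) :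
    evalMer N P = 0 ↔ MvPolynomial.aeval (gensK Kbar N) P = 0 := by
  rw [← evalHol_eq_zero_iff]
  show algebraMap Hol Mer (evalHol N P) = 0 ↔ _
  exact map_eq_zero_iff _ (IsFractionRing.injective Hol Mer)

/-- The analytic embedding of the function field of `X₀(N)` into `Mer`. -/
noncomputable def embAn (N : ℕ) : ↥(modularFunctionFieldBar N) →+* Mer :=
  (exists_lift N (evalMer N) (evalMer_eq_zero_iff N)).choose

theorem embAn_aevalF (N : ℕ) (P : MvPolynomial (DivIdx N) Kbar) :
    embAn N (aevalF N P) = algebraMap Hol Mer (evalHol N P) :=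
  (exists_lift N (evalMer N) (evalMer_eq_zero_iff N)).choose_spec P

/-- The embeddings `f ↦ f_an ∘ γ⁻¹`. -/
noncomputable def tau (N : ℕ) (γ : SL(2, ℤ)) : ↥(modularFunctionFieldBar N) →+* Mer :=
  (merAct γ : Mer →+* Mer).comp (embAn N)

theorem tau_apply (N : ℕ) (γ : SL(2, ℤ)) (f : ↥(modularFunctionFieldBar N)) :
    tau N γ f = merAct γ (embAn N f) := rfl

theorem tau_one (N : ℕ) (f : ↥(modularFunctionFieldBar N)) : tau N 1 f = embAn N f := by
  rw [tau_apply, merAct_one]

theorem tau_mul (N : ℕ) (δ γ : SL(2, ℤ)) (f : ↥(modularFunctionFieldBar N)) :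
    tau N (δ * γ) f = merAct δ (tau N γ f) := by
  rw [tau_apply, tau_apply, merAct_mul]

theorem tau_aevalF (N : ℕ) (γ : SL(2, ℤ)) (P : MvPolynomial (DivIdx N) Kbar) :
    tau N γ (aevalF N P) = algebraMap Hol Mer (holAct γ (evalHol N P)) := by
  rw [tau_apply, embAn_aevalF, merAct_algebraMap]

theorem tau_mul_of_mem (N : ℕ) (γ g : SL(2, ℤ)) (hg : g ∈ Gamma0 N) :
    tau N (γ * g) = tau N γ := by
  apply ringHom_ext N
  intro P
  rw [tau_aevalF, tau_aevalF, holAct_mul, holAct_evalHol N g hg]

theorem tau_algebraMap (N : ℕ) (γ : SL(2, ℤ)) (c : Kbar) :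
    tau N γ (algebraMap Kbar ↥(modularFunctionFieldBar N) c) =
      algebraMap Hol Mer (constHol (iotaQbar c)) := by
  rw [← aevalF_C, tau_aevalF]
  congr 1
  simp only [evalHol, MvPolynomial.coe_eval₂Hom, MvPolynomial.eval₂_C, RingHom.comp_apply]
  exact holAct_constHol γ _

/-- the generator `jq(q^d)` as an element of the function field -/
noncomputable def genF (N : ℕ) (d : DivIdx N) : ↥(modularFunctionFieldBar N) :=
  aevalF N (MvPolynomial.X d)

theorem tau_genF (N : ℕ) (γ : SL(2, ℤ)) (d : DivIdx N) :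
    tau N γ (genF N d) = algebraMap Hol Mer (holAct γ (jHol d.1)) := by
  rw [genF, tau_aevalF]
  congr 2
  simp only [evalHol, MvPolynomial.coe_eval₂Hom, MvPolynomial.eval₂_X]

end Fermat.Agent.Lib.ModC
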