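import Mathlib
import Fermat.Agent.Lib.ModC.HolAct

/-!
# The rotation lemma on `Hol` (item 68, block C-Hol, part 5)

If `δ ∈ SL(2,ℤ)` fixes `z₀` and acts on the tangent space at `z₀` through a primitive `s`-th root
of unity, then every `δ`-invariant meromorphic function has order divisible by `s` at `z₀`.
No linearisation is needed: compare the leading coefficients.
-/

set_option autoImplicit false
set_option linter.unusedSectionVars false

open UpperHalfPlane Complex Filter Topology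
open scoped Manifold MatrixGroups

namespace Fermat.Agent.Lib.ModC

open Fermat.Agent.Lib.FF

/-- local factorisation of an analytic map at a fixed point -/
theorem exists_factor_fixed {m : ℂ → ℂ} {z₀ : ℂ} (hm : AnalyticAt ℂ m z₀) (hfix : m z₀ = z₀)
    (hd : deriv m z₀ ≠ 0) :
    ∃ M : ℂ → ℂ, AnalyticAt ℂ M z₀ ∧ M z₀ = deriv m z₀ ∧
      ∀ᶠ w in 𝓝 z₀, m w - z₀ = (w - z₀) * M w := by
  have h1 := hm.analyticOrderAt_sub_eq_one_of_deriv_ne_zero hd
  have hsub : AnalyticAt ℂ (fun w => m w - m z₀) z₀ := hm.sub analyticAt_const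
  rw [show (1 : ℕ∞) = ((1 : ℕ) : ℕ∞) from rfl, hsub.analyticOrderAt_eq_natCast] at h1
  obtain ⟨M, hM, -, hev⟩ := h1
  refine ⟨M, hM, ?_, ?_⟩
  · have hev' : m =ᶠ[𝓝 z₀] fun w => z₀ + (w - z₀) * M w := by
      filter_upwards [hev] with w hw
      rw [hfix, pow_one, smul_eq_mul] at hw
      rw [← hw]
      ring
    rw [hev'.deriv_eq]
    have hM' := hM.differentiableAt.hasDerivAt
    have h2 : HasDerivAt (fun w => z₀ + (w - z₀) * M w)
        (1 * M z₀ + (z₀ - z₀) * deriv M z₀) z₀ :=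
      (((hasDerivAt_id z₀).sub_const z₀).mul hM').const_add z₀
    rw [h2.deriv]
    ring
  · filter_upwards [hev] with w hw
    rw [hfix, pow_one, smul_eq_mul] at hw
    exact hw

/-- **Rotation lemma, analytic form.** -/
theorem pow_eq_pow_of_invariant {f g m : ℂ → ℂ} {z₀ : ℂ} {α β : ℕ}
    (hm : AnalyticAt ℂ m z₀) (hfix : m z₀ = z₀) (hd : deriv m z₀ ≠ 0)
    (hf : AnalyticAt ℂ f z₀) (hg : AnalyticAt ℂ g z₀)
    (hα : analyticOrderAt f z₀ = α) (hβ : analyticOrderAt g z₀ = β)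
    (hinv : ∀ᶠ w in 𝓝 z₀, f (m w) * g w = f w * g (m w)) :
    deriv m z₀ ^ α = deriv m z₀ ^ β := by
  obtain ⟨M, hM, hMz, hMev⟩ := exists_factor_fixed hm hfix hd
  rw [hf.analyticOrderAt_eq_natCast] at hα
  rw [hg.analyticOrderAt_eq_natCast] at hβ
  obtain ⟨A, hA, hA0, hAev⟩ := hα
  obtain ⟨B, hB, hB0, hBev⟩ := hβ
  have hmt : Tendsto m (𝓝 z₀) (𝓝 z₀) := by
    have := hm.continuousAt.tendsto
    rwa [hfix] at this
  have hAm : AnalyticAt ℂ (fun w => A (m w)) z₀ := by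
    have hA' : AnalyticAt ℂ A (m z₀) := by rw [hfix]; exact hA
    exact hA'.comp hm
  have hBm : AnalyticAt ℂ (fun w => B (m w)) z₀ := by
    have hB' : AnalyticAt ℂ B (m z₀) := by rw [hfix]; exact hB
    exact hB'.comp hm
  set Φ : ℂ → ℂ := fun w => M w ^ α * A (m w) * B w - A w * (M w ^ β * B (m w)) with hΦ
  have hΦc : ContinuousAt Φ z₀ :=
    ((((hM.pow α).mul hAm).mul hB).sub (hA.mul ((hM.pow β).mul hBm))).continuousAt
  have hΦ0 : ∀ᶠ w in 𝓝[≠] z₀, Φ w = 0 := by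
    have hall : ∀ᶠ w in 𝓝 z₀, w ≠ z₀ → Φ w = 0 := by
      filter_upwards [hinv, hAev, hBev, hmt.eventually hAev, hmt.eventually hBev, hMev]
        with w h1 h2 h3 h4 h5 h6 hw
      rw [h2, h3, h4, h5, h6] at h1
      simp only [smul_eq_mul] at h1
      have hw0 : w - z₀ ≠ 0 := sub_ne_zero.mpr hw
      have hpow : (w - z₀) ^ (α + β) ≠ 0 := pow_ne_zero _ hw0
      have : (w - z₀) ^ (α + β) * Φ w = 0 := by
        rw [hΦ]
        simp only
        have e1 : (w - z₀) ^ (α + β) * (M w ^ α * A (m w) * B w - A w * (M w ^ β * B (m w)))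
            = ((w - z₀) * M w) ^ α * A (m w) * ((w - z₀) ^ β * B w)
              - (w - z₀) ^ α * A w * (((w - z₀) * M w) ^ β * B (m w)) := by
          rw [pow_add, mul_pow, mul_pow]
          ring
        rw [e1, h1, sub_self]
      exact (mul_eq_zero.mp this).resolve_left hpow
    exact eventually_nhdsWithin_iff.mpr hall
  have hz : Φ z₀ = 0 := by
    by_contra hne
    have h1 : ∀ᶠ w in 𝓝 z₀, Φ w ≠ 0 := hΦc.eventually_ne hne
    have h2 : ∀ᶠ w in 𝓝[≠] z₀, Φ w ≠ 0 := h1.filter_mono nhdsWithin_le_nhds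
    have h3 : ∀ᶠ w in 𝓝[≠] z₀, False := by
      filter_upwards [hΦ0, h2] with w h h'
      exact h' h
    exact (Filter.eventually_false_iff_eq_bot.mp h3 ▸ (inferInstance : (𝓝[≠] z₀).NeBot)).ne rfl
  rw [hΦ] at hz
  simp only [hfix, hMz] at hz
  have hAB : A z₀ * B z₀ ≠ 0 := mul_ne_zero hA0 hB0
  have : (deriv m z₀ ^ α - deriv m z₀ ^ β) * (A z₀ * B z₀) = 0 := by
    rw [← hz]
    ring
  exact sub_eq_zero.mp ((mul_eq_zero.mp this).resolve_right hAB)

/-- **Rotation lemma on `Hol`.** -/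
theorem dvd_holOrd_sub_of_invariant (z₀ : ℍ) (δ : SL(2, ℤ)) (hδ : δ • z₀ = z₀) (s : ℕ)
    (hζ : IsPrimitiveRoot
      (deriv (fun w : ℂ => ((Matrix.SpecialLinearGroup.mapGL ℝ δ⁻¹ • ofComplex w : ℍ) : ℂ)) z₀) s)
    (a b : Hol) (ha : a ≠ 0) (hb : b ≠ 0) (hinv : holAct δ a * b = a * holAct δ b) :
    (s : ℤ) ∣ holOrd z₀ a - holOrd z₀ b := by
  set m : ℂ → ℂ := fun w : ℂ => ((Matrix.SpecialLinearGroup.mapGL ℝ δ⁻¹ • ofComplex w : ℍ) : ℂ)
    with hm
  have hman : AnalyticAt ℂ m z₀ := UpperHalfPlane.analyticAt_smul (det_mapGL_pos δ⁻¹) z₀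
  have hd : deriv m z₀ ≠ 0 := UpperHalfPlane.deriv_smul_ne_zero (det_mapGL_pos δ⁻¹) z₀
  have hfix : m z₀ = z₀ := by
    have h1 : δ⁻¹ • z₀ = z₀ := by
      conv_lhs => rw [← hδ]
      rw [inv_smul_smul]
    show ((Matrix.SpecialLinearGroup.mapGL ℝ δ⁻¹ • ofComplex (z₀ : ℂ) : ℍ) : ℂ) = z₀
    rw [ofComplex_apply]
    exact congrArg _ h1
  have hfun : (holExt a ∘ m) * holExt b = holExt a * (holExt b ∘ m) := by
    have := congrArg holExt hinv
    rwa [holExt_mul, holExt_mul, holExt_holAct, holExt_holAct] at this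
  have key := pow_eq_pow_of_invariant (f := holExt a) (g := holExt b) hman hfix hd
    (analyticAt_holExt a z₀) (analyticAt_holExt b z₀)
    (cast_holOrd z₀ a ha).symm (cast_holOrd z₀ b hb).symm
    (Eventually.of_forall fun w => congrFun hfun w)
  have hζ0 : deriv m z₀ ≠ 0 := hd
  have h1 : deriv m z₀ ^ ((analyticOrderNatAt (holExt a) (z₀ : ℂ) : ℤ)
      - (analyticOrderNatAt (holExt b) (z₀ : ℂ) : ℤ)) = 1 := by
    rw [zpow_sub₀ hζ0, zpow_natCast, zpow_natCast, key, div_self (pow_ne_zero _ hζ0)]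
  exact (hζ.zpow_eq_one_iff_dvd _).mp h1

/-- **Rotation lemma on `Mer`.** -/
theorem dvd_ordAt_of_invariant (z₀ : ℍ) (δ : SL(2, ℤ)) (hδ : δ • z₀ = z₀) (s : ℕ)
    (hζ : IsPrimitiveRoot
      (deriv (fun w : ℂ => ((Matrix.SpecialLinearGroup.mapGL ℝ δ⁻¹ • ofComplex w : ℍ) : ℂ)) z₀) s)
    (u : Mer) (hu : u ≠ 0) (hinv : merAct δ u = u) : (s : ℤ) ∣ ordAt z₀ u := by
  obtain ⟨a, b, ha, hb, rfl⟩ := exists_eq_div (R := Hol) u hu
  rw [ordAt_div z₀ ha hb]
  apply dvd_holOrd_sub_of_invariant z₀ δ hδ s hζ a b ha hb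
  have hinj := IsFractionRing.injective Hol Mer
  have hbL : algebraMap Hol Mer b ≠ 0 := fun h => hb (hinj (by rw [h, map_zero]))
  have hb' : holAct δ b ≠ 0 := (map_ne_zero_iff _ (holAct δ).injective).mpr hb
  have hb'L : algebraMap Hol Mer (holAct δ b) ≠ 0 := fun h => hb' (hinj (by rw [h, map_zero]))
  rw [map_div₀, merAct_algebraMap, merAct_algebraMap, div_eq_div_iff hb'L hbL] at hinv
  apply hinj
  rw [map_mul, map_mul, hinv]

end Fermat.Agent.Lib.ModC
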