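import Mathlib
import Fermat.Agent.Lib.ModC.HolEmb
import Fermat.Agent.Lib.ModC.HolRot
import Fermat.Agent.Lib.ModC.Counts
import Fermat.Agent.Lib.ModJ.Order

/-!
# The models at the finite base points (item 68, block C-Hol, part 6)

`modelGeneric`, `modelZero`, `model1728`: the `Model`s (in the sense of `ModC/Model.lean`) at a
generic point, at `ρ` and at `i`.
-/

set_option autoImplicit false
set_option linter.unusedSectionVars false

open UpperHalfPlane Complex Filter Topology CongruenceSubgroup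
open scoped Manifold MatrixGroups

namespace Fermat.Agent.Lib.ModC

open Fermat.Agent.Lib.FF Fermat.Agent.Lib.ModJ ModularCurve Fermat.Agent.S24

local notation "Kbar" => AlgebraicClosure ℚ

/-! ### multipliers -/

theorem det_mapGL (γ : SL(2, ℤ)) : (Matrix.SpecialLinearGroup.mapGL ℝ γ).val.det = 1 := by
  have h : (Matrix.SpecialLinearGroup.mapGL ℝ γ).det.val = 1 := by simp
  exact h

theorem deriv_smul_SL (γ : SL(2, ℤ)) (z : ℍ) :
    deriv (fun w : ℂ => ((Matrix.SpecialLinearGroup.mapGL ℝ γ • ofComplex w : ℍ) : ℂ)) z =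
      1 / (((γ 1 0 : ℤ) : ℂ) * z + ((γ 1 1 : ℤ) : ℂ)) ^ 2 := by
  rw [UpperHalfPlane.deriv_smul (det_mapGL_pos γ), det_mapGL]
  simp [denom]

theorem multiplier_S :
    deriv (fun w : ℂ => ((Matrix.SpecialLinearGroup.mapGL ℝ (ModularGroup.S)⁻¹ •
      ofComplex w : ℍ) : ℂ)) UpperHalfPlane.I = -1 := by
  rw [deriv_smul_SL]
  have h10 : (ModularGroup.S)⁻¹ 1 0 = -1 := by decide
  have h11 : (ModularGroup.S)⁻¹ 1 1 = 0 := by decide
  rw [h10, h11, UpperHalfPlane.coe_I]
  push_cast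
  have : (-1 * Complex.I + 0) ^ 2 = -1 := by
    ring_nf
    rw [Complex.I_sq]
  rw [this]
  norm_num

theorem multiplier_ST :
    deriv (fun w : ℂ => ((Matrix.SpecialLinearGroup.mapGL ℝ (ModularGroup.S * ModularGroup.T)⁻¹ •
      ofComplex w : ℍ) : ℂ)) ρ = (ρ : ℂ) := by
  rw [deriv_smul_SL]
  have h10 : (ModularGroup.S * ModularGroup.T)⁻¹ 1 0 = -1 := by decide
  have h11 : (ModularGroup.S * ModularGroup.T)⁻¹ 1 1 = 0 := by decide
  rw [h10, h11]
  push_cast
  have h3 := rho_cube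
  have hρ : (ρ : ℂ) ≠ 0 := UpperHalfPlane.ne_zero ρ
  have : (-1 * (ρ : ℂ) + 0) ^ 2 = (ρ : ℂ) ^ 2 := by ring
  rw [this, div_eq_iff (pow_ne_zero 2 hρ)]
  rw [← h3]
  ring

theorem isPrimitiveRoot_neg_one_two : IsPrimitiveRoot (-1 : ℂ) 2 := by
  refine IsPrimitiveRoot.mk_of_lt _ (by norm_num) (by norm_num) ?_
  intro l hl hl2
  have : l = 1 := by omega
  subst this
  norm_num

theorem isPrimitiveRoot_rho : IsPrimitiveRoot (ρ : ℂ) 3 := by
  have h3 := rho_cube
  have h1 : (ρ : ℂ) ≠ 1 := by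
    intro h
    have := congrArg Complex.im h
    have him : (0 : ℝ) < (ρ : ℂ).im := ρ.im_pos
    rw [this] at him
    simp at him
  refine IsPrimitiveRoot.mk_of_lt _ (by norm_num) h3 ?_
  intro l hl hl3
  have : l = 1 ∨ l = 2 := by omega
  rcases this with rfl | rfl
  · simpa using h1
  · intro h2
    apply h1
    calc (ρ : ℂ) = (ρ : ℂ) ^ 3 * ((ρ : ℂ) ^ 2)⁻¹ := by
          have hρ : (ρ : ℂ) ≠ 0 := UpperHalfPlane.ne_zero ρ
          field_simp
      _ = 1 := by rw [h3, h2]; simp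

/-! ### the embeddings -/

variable (N : ℕ) [NeZero N]

/-- `N` as an index of a generator -/
noncomputable def holIdxN : DivIdx N := ⟨⟨N, Nat.pos_of_ne_zero (NeZero.ne N)⟩, dvd_rfl⟩

/-- `1` as an index of a generator -/
noncomputable def holIdxOne : DivIdx N := ⟨1, one_dvd N⟩

theorem genF_idxOne : genF N (holIdxOne N) = jBar N := by
  apply Subtype.ext
  show MvPolynomial.aeval (gensK Kbar N) (MvPolynomial.X (holIdxOne N)) = coeffEmb Kbar jq
  rw [MvPolynomial.aeval_X, gensK_eq]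
  congr 1
  exact qExpand_one_apply _

theorem tau_eq_iff (γ γ' : SL(2, ℤ)) : tau N γ = tau N γ' ↔ γ⁻¹ * γ' ∈ Gamma0 N := by
  constructor
  · intro h
    have h1 := congrArg (fun τ => τ (genF N (holIdxN N))) h
    simp only [tau_genF] at h1
    have h2 := IsFractionRing.injective Hol Mer h1
    have hN : ((⟨N, Nat.pos_of_ne_zero (NeZero.ne N)⟩ : ℕ+) : ℕ) = N := rfl
    have := mem_Gamma0_of_jFunD_smul_eq ⟨N, Nat.pos_of_ne_zero (NeZero.ne N)⟩ (γ⁻¹ * γ') ?_
    · exact this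
    · intro z
      have h3 := congrArg (fun f : Hol => (f : ℍ → ℂ) (γ' • z)) h2
      simp only [holAct_apply, jHol_apply, inv_smul_smul] at h3
      rw [mul_smul]
      exact h3
  · intro h
    have : γ' = γ * (γ⁻¹ * γ') := by rw [mul_inv_cancel_left]
    rw [this]
    exact (tau_mul_of_mem N γ _ h).symm

theorem mem_Gamma0_one (g : SL(2, ℤ)) : g ∈ Gamma0 1 := by
  rw [Gamma0_mem]
  exact Subsingleton.elim _ _

theorem tau_jBar (γ : SL(2, ℤ)) :
    tau N γ (jBar N) = algebraMap Hol Mer (jHol 1) := by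
  have h : holAct γ (jHol (holIdxOne N).1) = jHol 1 :=
    holAct_jHol_of_mem_Gamma0 (N := 1) 1 (by simp) γ (mem_Gamma0_one γ)
  rw [← genF_idxOne, tau_genF, h]

theorem tau_jBar_sub (γ : SL(2, ℤ)) (a : Kbar) :
    tau N γ (jBar N - algebraMap Kbar _ a) =
      algebraMap Hol Mer (jHol 1 - constHol (iotaQbar a)) := by
  rw [map_sub, tau_jBar, tau_algebraMap, map_sub]

theorem holExt_jHol_sub (z₀ : ℍ) (a : Kbar) (ha : iotaQbar a = jFun z₀) :
    holExt (jHol 1 - constHol (iotaQbar a)) = fun w => jC w - jC z₀ := by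
  ext w
  show jFunD 1 (ofComplex w) - iotaQbar a = jC w - jC z₀
  rw [ha, jC_coe]
  congr 1
  show jFun (pnatSMul 1 (ofComplex w)) = jFun (ofComplex w)
  congr 1
  apply UpperHalfPlane.ext
  rw [coe_pnatSMul]
  simp

theorem jHol_sub_ne_zero (a : Kbar) : jHol 1 - constHol (iotaQbar a) ≠ 0 := by
  intro h
  obtain ⟨z, hz⟩ := jFun_surjective (iotaQbar a + 1)
  have h1 := congrArg (fun f : Hol => (f : ℍ → ℂ) z) h
  have h2 : jFunD 1 z - iotaQbar a = 0 := h1
  have h3 : jFunD 1 z = jFun z := by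
    show jFun (pnatSMul 1 z) = jFun z
    congr 1
    apply UpperHalfPlane.ext
    rw [coe_pnatSMul]
    simp
  rw [h3, hz] at h2
  simp at h2

/-- The model at a base point `z₀` with `j(z₀) = ι a`. -/
noncomputable def modelAt (z₀ : ℍ) (a : Kbar) (ha : iotaQbar a = jFun z₀) (o : ℕ)
    (ho : analyticOrderAt (fun w => jC w - jC z₀) (z₀ : ℂ) = o) (δ : SL(2, ℤ))
    (hδ : δ • z₀ = z₀)
    (hdvd : ∀ (γ : SL(2, ℤ)) (f : ↥(modularFunctionFieldBar N)) (h : ℕ), f ≠ 0 → 0 < h →
      γ⁻¹ * δ ^ h * γ ∈ Gamma0 N → (o : ℤ) ∣ h * ordAt z₀ (tau N γ f)) :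
    Model Kbar ↥(modularFunctionFieldBar N) N (jBar N - algebraMap Kbar _ a) o δ where
  Ω := Mer
  w := ordAt z₀
  isOrdFun := isOrdFun_ordAt z₀
  τ := tau N
  τ_eq_iff := tau_eq_iff N
  τ_const γ c := by rw [tau_algebraMap, tau_algebraMap]
  τ_y γ := by rw [tau_jBar_sub, tau_jBar_sub]
  w_const γ c hc := by
    rw [tau_algebraMap]
    have hc' : iotaQbar c ≠ 0 := (map_ne_zero iotaQbar).mpr hc
    have hne : constHol (iotaQbar c) ≠ 0 :=
      (map_ne_zero_iff _ constHol_injective).mpr hc'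
    rw [ordAt_algebraMap z₀ hne, holOrd_constHol z₀ hc']
  w_y := by
    rw [tau_jBar_sub, ordAt_algebraMap z₀ (jHol_sub_ne_zero a), holOrd, holExt_jHol_sub z₀ a ha,
      analyticOrderNatAt, ho]
    rfl
  w_stab γ f := by
    rw [tau_mul, ordAt_merAct]
    congr 1
    conv_lhs => rw [← hδ]
    rw [inv_smul_smul]
  w_dvd := hdvd

/-- invariance of `tau N γ f` under a stabiliser of the coset -/
theorem merAct_tau_of_mem (δ γ : SL(2, ℤ)) (h : γ⁻¹ * δ * γ ∈ Gamma0 N)
    (f : ↥(modularFunctionFieldBar N)) : merAct δ (tau N γ f) = tau N γ f := by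
  rw [← tau_mul]
  have : δ * γ = γ * (γ⁻¹ * δ * γ) := by group
  rw [this, tau_mul_of_mem N γ _ h]

theorem tau_ne_zero (γ : SL(2, ℤ)) {f : ↥(modularFunctionFieldBar N)} (hf : f ≠ 0) :
    tau N γ f ≠ 0 := (map_ne_zero (tau N γ)).mpr hf

/-- The model at a generic point. -/
noncomputable def modelGeneric (a : Kbar) (h0 : a ≠ 0) (h1 : a ≠ 1728) :
    Model Kbar ↥(modularFunctionFieldBar N) N (jBar N - algebraMap Kbar _ a) 1 1 :=
  let z₀ := (jFun_surjective (iotaQbar a)).choose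
  have hz : jFun z₀ = iotaQbar a := (jFun_surjective (iotaQbar a)).choose_spec
  modelAt N z₀ a hz.symm 1
    (by
      have e0 : jFun z₀ ≠ 0 := by rw [hz]; exact (map_ne_zero iotaQbar).mpr h0
      have e1 : jFun z₀ ≠ 1728 := by
        rw [hz]
        intro h
        apply h1
        apply iotaQbar.injective
        rw [h]
        exact (map_ofNat iotaQbar 1728).symm
      rw [analyticOrderAt_jC_sub_generic z₀ e0 e1]
      rfl)
    1 (one_smul _ _)
    (fun γ f h _ _ _ => by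
      rw [Nat.cast_one]
      exact one_dvd _)

/-- The model at `ρ`. -/
noncomputable def modelZero :
    Model Kbar ↥(modularFunctionFieldBar N) N (jBar N - algebraMap Kbar _ 0) 3
      (ModularGroup.S * ModularGroup.T) :=
  modelAt N ρ 0 (by rw [map_zero, jFun_rho]) 3 (by rw [analyticOrderAt_jC_rho]; rfl)
    (ModularGroup.S * ModularGroup.T) ST_smul_rho
    (fun γ f h hf _ hγ =>
      w_dvd_ST N (fun γ => ordAt ρ (tau N γ f))
        (fun γ hγ => dvd_ordAt_of_invariant ρ _ ST_smul_rho 3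
          (by rw [multiplier_ST]; exact isPrimitiveRoot_rho)
          _ (tau_ne_zero N γ hf) (merAct_tau_of_mem N _ γ hγ f)) γ h hγ)

/-- The model at `i`. -/
noncomputable def model1728 :
    Model Kbar ↥(modularFunctionFieldBar N) N (jBar N - algebraMap Kbar _ 1728) 2
      ModularGroup.S :=
  modelAt N UpperHalfPlane.I 1728 (by rw [jFun_I]; exact map_ofNat iotaQbar 1728) 2
    (by rw [analyticOrderAt_jC_I]; rfl)
    ModularGroup.S S_smul_I
    (fun γ f h hf _ hγ =>
      w_dvd_S N (fun γ => ordAt UpperHalfPlane.I (tau N γ f))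
        (fun γ hγ => dvd_ordAt_of_invariant UpperHalfPlane.I _ S_smul_I 2
          (by rw [multiplier_S]; exact isPrimitiveRoot_neg_one_two)
          _ (tau_ne_zero N γ hf) (merAct_tau_of_mem N _ γ hγ f)) γ h hγ)

end Fermat.Agent.Lib.ModC
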