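import Mathlib
import Fermat.Agent.Lib.ModC.Hol

/-!
# Regularity: a meromorphic function on `ℍ` without poles is holomorphic (S20 bridge)

* `exists_hol_of_ordAt_nonneg`: `h : Mer` with `0 ≤ ordAt z h` for all `z` comes from `Hol`.
-/

set_option autoImplicit false
set_option linter.unusedSectionVars false

open UpperHalfPlane Complex Filter Topology
open scoped Manifold MatrixGroups

namespace Fermat.Agent.Lib.ModC

open Fermat.Agent.Lib.FF

theorem meromorphicOrderAt_holExt (f : Hol) (hf : f ≠ 0) (z : ℍ) :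
    meromorphicOrderAt (holExt f) (z : ℂ) = ((holOrd z f : ℤ) : WithTop ℤ) := by
  rw [(analyticAt_holExt f z).meromorphicOrderAt_eq, ← cast_holOrd z f hf, holOrd]
  rfl

/-- If `ord_z a ≥ ord_z b` at every point, then `b` divides `a` in `Hol`. -/
theorem exists_mul_eq_of_holOrd_le (a b : Hol) (hb : b ≠ 0)
    (h : ∀ z : ℍ, holOrd z b ≤ holOrd z a) : ∃ f : Hol, f * b = a := by
  by_cases ha : a = 0
  · exact ⟨0, by rw [ha, zero_mul]⟩
  set U : Set ℂ := {z : ℂ | 0 < z.im} with hU
  set g : ℂ → ℂ := holExt a / holExt b with hg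
  have hmer : MeromorphicOn g U := fun z hz =>
    ((analyticOnNhd_holExt a z hz).meromorphicAt).div ((analyticOnNhd_holExt b z hz).meromorphicAt)
  set G : ℂ → ℂ := toMeromorphicNFOn g U with hG
  have hGan : ∀ z : ℍ, AnalyticAt ℂ G (z : ℂ) := by
    intro z
    have hz : (z : ℂ) ∈ U := z.im_pos
    have hNF : MeromorphicNFAt G (z : ℂ) := meromorphicNFOn_toMeromorphicNFOn g U hz
    rw [← hNF.meromorphicOrderAt_nonneg_iff_analyticAt]
    rw [meromorphicOrderAt_congr (hmer.toMeromorphicNFOn_eq_self_on_nhdsNE hz), hg,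
      meromorphicOrderAt_div (analyticAt_holExt a z).meromorphicAt
        (analyticAt_holExt b z).meromorphicAt,
      meromorphicOrderAt_holExt a ha z, meromorphicOrderAt_holExt b hb z]
    have := h z
    have h0 : (0 : ℤ) ≤ holOrd z a - holOrd z b := by linarith
    exact_mod_cast h0
  have hGval : ∀ z : ℍ, G (z : ℂ) * (b : ℍ → ℂ) z = (a : ℍ → ℂ) z := by
    intro z
    have hz : (z : ℂ) ∈ U := z.im_pos
    by_cases hbz : (b : ℍ → ℂ) z = 0
    · rw [hbz, mul_zero]
      by_contra hne
      have h1 : holOrd z a = 0 := (holOrd_eq_zero_iff z a).mpr (Or.inl (Ne.symm hne))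
      have h2 : holOrd z b ≠ 0 := by
        intro h0
        rcases (holOrd_eq_zero_iff z b).mp h0 with h3 | h3
        · exact h3 hbz
        · exact hb h3
      have h3 := h z
      have h4 := holOrd_nonneg z b
      omega
    · have hgan : AnalyticAt ℂ g (z : ℂ) := by
        rw [hg]
        exact (analyticAt_holExt a z).div (analyticAt_holExt b z) (by rwa [holExt_coe])
      have e1 : G (z : ℂ) = g (z : ℂ) := by
        rw [hG, toMeromorphicNFOn_eq_toMeromorphicNFAt hmer hz,
          toMeromorphicNFAt_eq_self.mpr hgan.meromorphicNFAt]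
      rw [e1, hg]
      simp only [Pi.div_apply, holExt_coe]
      field_simp
  have hfm : MDiff (fun z : ℍ => G (z : ℂ)) := by
    rw [UpperHalfPlane.mdifferentiable_iff]
    intro w hw
    have hw' : AnalyticAt ℂ G w := hGan ⟨w, hw⟩
    refine (hw'.differentiableAt.differentiableWithinAt).congr_of_eventuallyEq ?_ ?_
    · filter_upwards [self_mem_nhdsWithin] with u hu
      show G ((ofComplex u : ℍ) : ℂ) = G u
      rw [ofComplex_apply_of_im_pos hu]
    · show G ((ofComplex w : ℍ) : ℂ) = G w
      rw [ofComplex_apply_of_im_pos hw]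
  refine ⟨⟨fun z : ℍ => G (z : ℂ), hfm⟩, ?_⟩
  ext z
  exact hGval z

/-- **Regularity.** A meromorphic function on `ℍ` all of whose orders are nonnegative is
holomorphic. -/
theorem exists_hol_of_ordAt_nonneg (h : Mer) (hh : ∀ z : ℍ, 0 ≤ ordAt z h) :
    ∃ f : Hol, algebraMap Hol Mer f = h := by
  by_cases h0 : h = 0
  · exact ⟨0, by rw [h0, map_zero]⟩
  obtain ⟨a, b, ha, hb, rfl⟩ := exists_eq_div (R := Hol) h h0
  have hle : ∀ z : ℍ, holOrd z b ≤ holOrd z a := by
    intro z
    have := hh z
    rw [ordAt_div z ha hb] at this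
    linarith
  obtain ⟨f, hf⟩ := exists_mul_eq_of_holOrd_le a b hb hle
  refine ⟨f, ?_⟩
  have hbL : algebraMap Hol Mer b ≠ 0 := fun h =>
    hb (IsFractionRing.injective Hol Mer (by rw [h, map_zero]))
  rw [eq_div_iff hbL, ← map_mul, hf]

/-- the converse: holomorphic functions have nonnegative orders -/
theorem ordAt_algebraMap_nonneg (z : ℍ) (f : Hol) : 0 ≤ ordAt z (algebraMap Hol Mer f) := by
  by_cases hf : f = 0
  · rw [hf, map_zero, ordAt_zero]
  · rw [ordAt_algebraMap z hf]
    exact holOrd_nonneg z f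

end Fermat.Agent.Lib.ModC
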