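import Mathlib
import Fermat.Agent.Lib.ModC.HolModel
import Fermat.Agent.Lib.ModC.HolReg

/-!
# The derivative on `Hol` and the weight-2 function `j'` (S20 bridge)

* `holDeriv : Hol → Hol`, `holOrd_holDeriv_add_one`;
* `denomHol γ : Hol`, `z ↦ c z + d`; chain rule `holAct_holDeriv`;
* `jDer : Hol`, `holAct_jDer`.
-/

set_option autoImplicit false
set_option linter.unusedSectionVars false

open UpperHalfPlane Complex Filter Topology CongruenceSubgroup
open scoped Manifold MatrixGroups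

namespace Fermat.Agent.Lib.ModC

open Fermat.Agent.Lib.FF Fermat.Agent.Lib.ModJ

theorem holExt_eventuallyEq_of_coe (f : Hol) (g : ℂ → ℂ) (hg : ∀ z : ℍ, g (z : ℂ) = (f : ℍ → ℂ) z)
    (z : ℍ) : g =ᶠ[𝓝 (z : ℂ)] holExt f := by
  filter_upwards [isOpen_upperHalfPlaneSet.mem_nhds z.im_pos] with w hw
  have := hg ⟨w, hw⟩
  rw [this, holExt, ofComplex_apply_of_im_pos hw]

/-- The derivative of a holomorphic function on `ℍ`. -/
noncomputable def holDeriv (f : Hol) : Hol :=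
  ⟨fun z : ℍ => deriv (holExt f) (z : ℂ), by
    rw [mem_Hol, UpperHalfPlane.mdifferentiable_iff]
    have h1 : DifferentiableOn ℂ (deriv (holExt f)) {z : ℂ | 0 < z.im} :=
      (differentiableOn_holExt f).deriv isOpen_upperHalfPlaneSet
    refine h1.congr ?_
    intro w hw
    show deriv (holExt f) ((ofComplex w : ℍ) : ℂ) = deriv (holExt f) w
    rw [ofComplex_apply_of_im_pos hw]⟩

@[simp]
theorem holDeriv_apply (f : Hol) (z : ℍ) :
    (holDeriv f : ℍ → ℂ) z = deriv (holExt f) (z : ℂ) := rfl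

theorem holExt_holDeriv_eventuallyEq (f : Hol) (z : ℍ) :
    deriv (holExt f) =ᶠ[𝓝 (z : ℂ)] holExt (holDeriv f) :=
  holExt_eventuallyEq_of_coe (holDeriv f) (deriv (holExt f)) (fun _ => rfl) z

theorem holDeriv_add (f g : Hol) : holDeriv (f + g) = holDeriv f + holDeriv g := by
  ext z
  show deriv (holExt f + holExt g) (z : ℂ) = deriv (holExt f) (z : ℂ) + deriv (holExt g) (z : ℂ)
  exact deriv_add (analyticAt_holExt f z).differentiableAt (analyticAt_holExt g z).differentiableAt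

theorem holDeriv_constHol (c : ℂ) : holDeriv (constHol c) = 0 := by
  ext z
  show deriv (fun _ : ℂ => c) (z : ℂ) = 0
  exact deriv_const _ _

theorem holDeriv_mul (f g : Hol) :
    holDeriv (f * g) = holDeriv f * g + f * holDeriv g := by
  ext z
  show deriv (holExt f * holExt g) (z : ℂ) =
    deriv (holExt f) (z : ℂ) * (g : ℍ → ℂ) z + (f : ℍ → ℂ) z * deriv (holExt g) (z : ℂ)
  rw [deriv_mul (analyticAt_holExt f z).differentiableAt (analyticAt_holExt g z).differentiableAt,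
    holExt_coe, holExt_coe]

/-- the order of the derivative -/
theorem holOrd_holDeriv_add_one (f : Hol) (z : ℍ) (hnc : f - constHol ((f : ℍ → ℂ) z) ≠ 0) :
    holOrd z (holDeriv f) + 1 = holOrd z (f - constHol ((f : ℍ → ℂ) z)) := by
  have h := (analyticAt_holExt f z).analyticOrderAt_deriv_add_one
  have e1 : (fun w => holExt f w - holExt f (z : ℂ)) =
      holExt (f - constHol ((f : ℍ → ℂ) z)) := by
    funext w
    rw [holExt_coe]
    rfl
  rw [e1, analyticOrderAt_congr (holExt_holDeriv_eventuallyEq f z)] at h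
  have hne : analyticOrderAt (holExt (f - constHol ((f : ℍ → ℂ) z))) (z : ℂ) ≠ ⊤ :=
    analyticOrderAt_holExt_ne_top _ hnc z
  have hne' : analyticOrderAt (holExt (holDeriv f)) (z : ℂ) ≠ ⊤ := by
    intro h0
    rw [h0] at h
    exact hne h.symm
  rw [holOrd, holOrd]
  have h2 : ((analyticOrderNatAt (holExt (holDeriv f)) (z : ℂ) : ℕ) : ℕ∞) + 1 =
      ((analyticOrderNatAt (holExt (f - constHol ((f : ℍ → ℂ) z))) (z : ℂ) : ℕ) : ℕ∞) := by
    rw [Nat.cast_analyticOrderNatAt hne, Nat.cast_analyticOrderNatAt hne']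
    exact h
  exact_mod_cast h2

/-- the automorphy factor `z ↦ c z + d` -/
noncomputable def denomHol (γ : SL(2, ℤ)) : Hol :=
  ⟨fun z : ℍ => ((γ 1 0 : ℤ) : ℂ) * (z : ℂ) + ((γ 1 1 : ℤ) : ℂ), by
    rw [mem_Hol, UpperHalfPlane.mdifferentiable_iff]
    have h1 : DifferentiableOn ℂ (fun w : ℂ => ((γ 1 0 : ℤ) : ℂ) * w + ((γ 1 1 : ℤ) : ℂ))
        {z : ℂ | 0 < z.im} :=
      ((differentiable_id.const_mul _).add_const _).differentiableOn
    refine h1.congr ?_
    intro w hw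
    show ((γ 1 0 : ℤ) : ℂ) * ((ofComplex w : ℍ) : ℂ) + ((γ 1 1 : ℤ) : ℂ) = _
    rw [ofComplex_apply_of_im_pos hw]⟩

@[simp]
theorem denomHol_apply (γ : SL(2, ℤ)) (z : ℍ) :
    (denomHol γ : ℍ → ℂ) z = ((γ 1 0 : ℤ) : ℂ) * (z : ℂ) + ((γ 1 1 : ℤ) : ℂ) := rfl

theorem denomHol_eq_denom (γ : SL(2, ℤ)) (z : ℍ) :
    (denomHol γ : ℍ → ℂ) z = denom γ z := by
  simp [denom]

theorem denomHol_apply_ne_zero (γ : SL(2, ℤ)) (z : ℍ) : (denomHol γ : ℍ → ℂ) z ≠ 0 := by
  rw [denomHol_eq_denom]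
  exact denom_ne_zero _ z

theorem denomHol_ne_zero (γ : SL(2, ℤ)) : denomHol γ ≠ 0 := by
  intro h
  apply denomHol_apply_ne_zero γ UpperHalfPlane.I
  rw [h]
  rfl

/-- **Chain rule**: `(f ∘ γ⁻¹)' · (c z + d)² = f' ∘ γ⁻¹`, with `(c, d)` the bottom row of `γ⁻¹`. -/
theorem holDeriv_holAct (γ : SL(2, ℤ)) (f : Hol) :
    holDeriv (holAct γ f) * denomHol γ⁻¹ ^ 2 = holAct γ (holDeriv f) := by
  ext z
  show deriv (holExt (holAct γ f)) (z : ℂ) * ((denomHol γ⁻¹ : ℍ → ℂ) z) ^ 2 =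
    deriv (holExt f) ((γ⁻¹ • z : ℍ) : ℂ)
  rw [holExt_holAct]
  have hφ : DifferentiableAt ℂ
      (fun w : ℂ => ((Matrix.SpecialLinearGroup.mapGL ℝ γ⁻¹ • ofComplex w : ℍ) : ℂ)) (z : ℂ) :=
    (UpperHalfPlane.analyticAt_smul (det_mapGL_pos γ⁻¹) z).differentiableAt
  have hφz : (fun w : ℂ => ((Matrix.SpecialLinearGroup.mapGL ℝ γ⁻¹ • ofComplex w : ℍ) : ℂ))
      (z : ℂ) = ((γ⁻¹ • z : ℍ) : ℂ) := by
    simp only [ofComplex_apply]
    rfl
  have hf : DifferentiableAt ℂ (holExt f)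
      ((fun w : ℂ => ((Matrix.SpecialLinearGroup.mapGL ℝ γ⁻¹ • ofComplex w : ℍ) : ℂ)) (z : ℂ)) := by
    rw [hφz]
    exact (analyticAt_holExt f _).differentiableAt
  rw [deriv_comp (z : ℂ) hf hφ, deriv_smul_SL, denomHol_apply]
  have hne := denomHol_apply_ne_zero γ⁻¹ z
  rw [denomHol_apply] at hne
  have e : ((Matrix.SpecialLinearGroup.mapGL ℝ γ⁻¹ • ofComplex (z : ℂ) : ℍ) : ℂ) =
      ((γ⁻¹ • z : ℍ) : ℂ) := hφz
  rw [e]
  field_simp

/-- The derivative of `j`, a holomorphic function on `ℍ` (of weight `2`). -/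
noncomputable def jDer : Hol := holDeriv (jHol 1)

theorem holExt_jHol_one : holExt (jHol 1) = jC := by
  funext w
  show jFunD 1 (ofComplex w) = jC w
  rw [jFunD, jC]
  congr 1
  apply UpperHalfPlane.ext
  rw [coe_pnatSMul]
  simp

theorem jDer_apply (z : ℍ) : (jDer : ℍ → ℂ) z = deriv jC (z : ℂ) := by
  rw [jDer, holDeriv_apply, holExt_jHol_one]

theorem holAct_jHol_one (γ : SL(2, ℤ)) : holAct γ (jHol 1) = jHol 1 := by
  ext z
  rw [holAct_apply, jHol_apply, jHol_apply, jFunD, jFunD]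
  have h1 : ∀ w : ℍ, pnatSMul 1 w = w := by
    intro w
    apply UpperHalfPlane.ext
    rw [coe_pnatSMul]
    simp
  rw [h1, h1]
  exact jFun_smul γ⁻¹ z

/-- **Weight 2**: `j'(γ⁻¹ z) = (c z + d)² j'(z)`. -/
theorem holAct_jDer (γ : SL(2, ℤ)) : holAct γ jDer = jDer * denomHol γ⁻¹ ^ 2 := by
  rw [jDer, ← holDeriv_holAct, holAct_jHol_one]

theorem jDer_ne_zero : jDer ≠ 0 := by
  intro h
  have h1 : ∀ z : ℍ, deriv jC (z : ℂ) = 0 := by
    intro z
    rw [← jDer_apply, h]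
    rfl
  obtain ⟨z, hz⟩ : ∃ z : ℍ, jFun z ≠ 0 ∧ jFun z ≠ 1728 := by
    obtain ⟨z, hz⟩ := jFun_surjective 1
    exact ⟨z, by rw [hz]; norm_num, by rw [hz]; norm_num⟩
  have h2 := h1 z
  rw [deriv_jC] at h2
  have h4 := E₄_ne_zero_of_jFun_ne z hz.1
  have h6 := E₆_ne_zero_of_jFun_ne z hz.2
  have hd := ModularForm.discriminant_ne_zero z
  have hpi : (2 * Real.pi * Complex.I : ℂ) ≠ 0 := Complex.two_pi_I_ne_zero
  exact div_ne_zero (mul_ne_zero (mul_ne_zero (neg_ne_zero.mpr hpi) (pow_ne_zero 2 h4)) h6) hd h2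

/-- the order of `j'` at a point is the order of `j - j(z)` minus one -/
theorem holOrd_jDer_add_one (z : ℍ) :
    holOrd z jDer + 1 = holOrd z (jHol 1 - constHol (jFun z)) := by
  have h1 : (jHol 1 : ℍ → ℂ) z = jFun z := by
    rw [jHol_apply, jFunD]
    congr 1
    apply UpperHalfPlane.ext
    rw [coe_pnatSMul]
    simp
  have hnc : jHol 1 - constHol ((jHol 1 : ℍ → ℂ) z) ≠ 0 := by
    intro h
    apply jDer_ne_zero
    have h2 : jHol 1 = constHol ((jHol 1 : ℍ → ℂ) z) := sub_eq_zero.mp h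
    rw [jDer, h2, holDeriv_constHol]
  have := holOrd_holDeriv_add_one (jHol 1) z hnc
  rw [h1] at this
  exact this

end Fermat.Agent.Lib.ModC
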