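import Mathlib
import Fermat.Agent.Lib.ModC.Lift
import Fermat.Agent.Lib.ModJ.Distinct

/-!
# Item 68 (S24), block (C), part C-Inf: the embeddings at the cusp `∞`

For `γ ∈ SL(2,ℤ)` we construct the ring homomorphism
`tauInf σ N γ : F → ℂ((t))`, `f ↦` the `q_N`-expansion of `z ↦ f_an(γ⁻¹ z)`, where
`F = laurentBaseChange K (modularFunctionFieldFull N)` and `σ : K →+* ℂ`.
-/

set_option autoImplicit false
set_option linter.unusedSectionVars false

noncomputable section

open UpperHalfPlane Function Complex CongruenceSubgroup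
open scoped Manifold MatrixGroups

namespace Fermat.Agent.Lib.ModC

open Fermat.Agent.Lib.ModJ

local notation "𝕢" => Periodic.qParam

variable {K : Type*} [Field K] [Algebra ℚ K] (σ : K →+* ℂ) (N : ℕ) [NeZero N]

theorem natCast_pos_real : (0 : ℝ) < (N : ℝ) := by
  exact_mod_cast Nat.pos_of_ne_zero (NeZero.ne N)

/-- existence of the `q_N`-expansion of `z ↦ j(d γ⁻¹ z)` -/
theorem exists_hasQL_gen (γ : SL(2, ℤ)) (d : DivIdx N) :
    ∃ L : LaurentSeries ℂ, HasQL N (fun z => jFunD d.1 (γ⁻¹ • z)) L := by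
  obtain ⟨A, B, D, -, -, -, h⟩ :=
    hasQL_jFunD_smul (Nat.pos_of_ne_zero (NeZero.ne N)) d.1 d.2 γ⁻¹
  exact ⟨_, h⟩

/-- the `q_N`-expansion of `z ↦ j(d γ⁻¹ z)` -/
def genInf (γ : SL(2, ℤ)) (d : DivIdx N) : LaurentSeries ℂ :=
  (exists_hasQL_gen N γ d).choose

theorem hasQL_genInf (γ : SL(2, ℤ)) (d : DivIdx N) :
    HasQL N (fun z => jFunD d.1 (γ⁻¹ • z)) (genInf N γ d) :=
  (exists_hasQL_gen N γ d).choose_spec

/-- the ring hom on polynomials -/
def phiInf (γ : SL(2, ℤ)) : MvPolynomial (DivIdx N) K →+* LaurentSeries ℂ :=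
  MvPolynomial.eval₂Hom ((HahnSeries.C : ℂ →+* LaurentSeries ℂ).comp σ) (genInf N γ)

theorem phiInf_C (γ : SL(2, ℤ)) (c : K) :
    phiInf σ N γ (MvPolynomial.C c) = HahnSeries.C (σ c) := by
  simp [phiInf]

theorem phiInf_X (γ : SL(2, ℤ)) (d : DivIdx N) :
    phiInf σ N γ (MvPolynomial.X d) = genInf N γ d := by
  simp [phiInf]

/-- the analytic function attached to a polynomial and `γ` -/
def evalAn (γ : SL(2, ℤ)) (P : MvPolynomial (DivIdx N) K) (z : ℍ) : ℂ :=
  MvPolynomial.eval₂ σ (fun d : DivIdx N => jFunD d.1 (γ⁻¹ • z)) P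

theorem hasQL_phiInf (γ : SL(2, ℤ)) (P : MvPolynomial (DivIdx N) K) :
    HasQL N (evalAn σ N γ P) (phiInf σ N γ P) := by
  unfold evalAn
  induction P using MvPolynomial.induction_on with
  | C a =>
    simp only [MvPolynomial.eval₂_C, phiInf_C]
    exact hasQL_C (σ a)
  | add p q hp hq =>
    simp only [MvPolynomial.eval₂_add, map_add]
    exact hp.add hq
  | mul_X p i hp =>
    simp only [MvPolynomial.eval₂_mul, MvPolynomial.eval₂_X, map_mul, phiInf_X]
    exact hp.mul (hasQL_genInf N γ i)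

theorem evalAn_one_eq (P : MvPolynomial (DivIdx N) K) (z : ℍ) :
    evalAn σ N 1 P z = MvPolynomial.eval₂ σ (fun d : DivIdx N => jFunD d.1 z) P := by
  simp [evalAn]

theorem evalAn_eq (γ : SL(2, ℤ)) (P : MvPolynomial (DivIdx N) K) (z : ℍ) :
    evalAn σ N γ P z = evalAn σ N 1 P (γ⁻¹ • z) := by
  simp [evalAn]

/-- kernel equality -/
theorem phiInf_eq_zero_iff (γ : SL(2, ℤ)) (P : MvPolynomial (DivIdx N) K) :
    phiInf σ N γ P = 0 ↔ MvPolynomial.aeval (gensK K N) P = 0 := by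
  rw [(hasQL_phiInf σ N γ P).eq_zero_iff (natCast_pos_real N)]
  have h := aeval_jqK_eq_zero_iff σ (fun d : DivIdx N => d.1) P
  have e : (MvPolynomial.aeval (gensK K N) P : LaurentSeries K)
      = MvPolynomial.aeval (fun i : DivIdx N => jqK K i.1) P := rfl
  rw [e, h]
  constructor
  · intro hz z
    have := hz (γ • z)
    rw [evalAn_eq, inv_smul_smul, evalAn_one_eq] at this
    exact this
  · intro hz z
    rw [evalAn_eq, evalAn_one_eq]
    exact hz _

/-- **the embedding at `∞`** -/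
def tauInf (γ : SL(2, ℤ)) :
    ↥(ModularCurve.laurentBaseChange K (ModularCurve.modularFunctionFieldFull N))
      →+* LaurentSeries ℂ :=
  (exists_lift N (phiInf σ N γ) (phiInf_eq_zero_iff σ N γ)).choose

theorem tauInf_aevalF (γ : SL(2, ℤ)) (P : MvPolynomial (DivIdx N) K) :
    tauInf σ N γ (aevalF N P) = phiInf σ N γ P :=
  (exists_lift N (phiInf σ N γ) (phiInf_eq_zero_iff σ N γ)).choose_spec P

/-- characterisation of `tauInf` on polynomial expressions -/
theorem hasQL_tauInf (γ : SL(2, ℤ)) (P : MvPolynomial (DivIdx N) K) :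
    HasQL N (evalAn σ N γ P) (tauInf σ N γ (aevalF N P)) := by
  rw [tauInf_aevalF]
  exact hasQL_phiInf σ N γ P

theorem tauInf_algebraMap (γ : SL(2, ℤ)) (c : K) :
    tauInf σ N γ (algebraMap K _ c) = HahnSeries.C (σ c) := by
  rw [← aevalF_C, tauInf_aevalF, phiInf_C]

theorem order_tauInf_algebraMap (γ : SL(2, ℤ)) (c : K) :
    (tauInf σ N γ (algebraMap K _ c)).order = 0 := by
  rw [tauInf_algebraMap]
  exact HahnSeries.order_C

/-! ### invariance of the generators under `Γ0` -/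

omit [NeZero N] in
theorem jFunD_smul_of_mem_Gamma0 (d : ℕ+) (γ : SL(2, ℤ)) (hγ : γ ∈ Gamma0 d) (z : ℍ) :
    jFunD d (γ • z) = jFunD d z := by
  obtain ⟨δ, A, B, D, hAD, hBD, h00, h01, h10, h11⟩ := hermite_entries γ d d.pos
  have hA : A = d := (hermite_A_eq_iff γ δ A D hAD h00 h10).mpr hγ
  have hD : D = 1 := (hermite_D_eq_one_iff d.pos A D hAD).mpr hA
  subst hD
  have hB : B = 0 := by omega
  subst hB
  have hApos : 0 < A := by rw [hA]; exact d.pos
  rw [jFunD, pnatSMul_smul_eq d γ δ A 0 1 hApos one_pos h00 h01 h10 h11 z, jFun_smul, jFunD]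
  congr 1
  apply UpperHalfPlane.ext
  rw [coe_affH, coe_pnatSMul, hA]
  simp

omit [NeZero N] in
theorem mem_Gamma0_of_dvd {d : ℕ} (hd : d ∣ N) {γ : SL(2, ℤ)} (hγ : γ ∈ Gamma0 N) :
    γ ∈ Gamma0 d := by
  rw [Gamma0_mem, ZMod.intCast_zmod_eq_zero_iff_dvd] at hγ ⊢
  exact Dvd.dvd.trans (by exact_mod_cast hd) hγ

theorem jFunD_one (z : ℍ) : jFunD 1 z = jFun z := by
  rw [jFunD]
  congr 1
  apply UpperHalfPlane.ext
  rw [coe_pnatSMul]
  simp

/-! ### `tauInf` on `j` -/

theorem qParam_one_eq_pow (z : ℍ) : 𝕢 1 z = 𝕢 (N : ℝ) z ^ N := by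
  have hN : (N : ℂ) ≠ 0 := by exact_mod_cast NeZero.ne N
  simp only [Periodic.qParam, ← Complex.exp_nat_mul]
  congr 1
  push_cast
  field_simp

/-- the `q_N`-expansion of `j` itself -/
theorem hasQL_jFun_N : HasQL N jFun (ModularCurve.qExpand ℂ N jqC) :=
  hasQL_jFun.comp N id (fun z => qParam_one_eq_pow N z)

/-- the index of the generator `j = jq(q^1)` -/
def idxOne : DivIdx N := ⟨1, by simp⟩

/-- the index of the generator `jq(q^N)` -/
def idxN : DivIdx N := ⟨⟨N, Nat.pos_of_ne_zero (NeZero.ne N)⟩, dvd_rfl⟩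

theorem genInf_idxOne (γ : SL(2, ℤ)) : genInf N γ (idxOne N) = ModularCurve.qExpand ℂ N jqC := by
  refine HasQL.unique (natCast_pos_real N) (hasQL_genInf N γ (idxOne N)) ?_
  refine (hasQL_jFun_N N).congr (fun z => ?_)
  show jFun z = jFunD 1 (γ⁻¹ • z)
  rw [jFunD_one, jFun_smul]

/-- the element `j` of the function field, as a polynomial expression -/
theorem coe_aevalF_X_idxOne :
    ((aevalF N (MvPolynomial.X (idxOne N) : MvPolynomial (DivIdx N) K) :
      ↥(ModularCurve.laurentBaseChange K (ModularCurve.modularFunctionFieldFull N)))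
        : LaurentSeries K) = ModularCurve.coeffEmb K ModularCurve.jq := by
  rw [coe_aevalF, MvPolynomial.aeval_X, gensK_eq]
  congr 1
  exact ModularCurve.qExpand_one_apply _

/-- **`tauInf` on `j`**: the expansion is `jq(t^N)`, of order `-N`. -/
theorem tauInf_j (γ : SL(2, ℤ))
    (hj : ModularCurve.coeffEmb K ModularCurve.jq
      ∈ ModularCurve.laurentBaseChange K (ModularCurve.modularFunctionFieldFull N)) :
    tauInf σ N γ ⟨ModularCurve.coeffEmb K ModularCurve.jq, hj⟩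
      = ModularCurve.qExpand ℂ N jqC := by
  have e : (⟨ModularCurve.coeffEmb K ModularCurve.jq, hj⟩ :
      ↥(ModularCurve.laurentBaseChange K (ModularCurve.modularFunctionFieldFull N)))
      = aevalF N (MvPolynomial.X (idxOne N)) := Subtype.ext (coe_aevalF_X_idxOne N).symm
  rw [e, tauInf_aevalF, phiInf_X, genInf_idxOne]

/-! ### distinctness -/

/-- `tauInf` depends only on the left coset `γ Γ0(N)`, and separates the cosets. -/
theorem tauInf_eq_iff (γ γ' : SL(2, ℤ)) :
    tauInf σ N γ = tauInf σ N γ' ↔ γ⁻¹ * γ' ∈ Gamma0 N := by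
  constructor
  · intro h
    have h1 : genInf N γ (idxN N) = genInf N γ' (idxN N) := by
      have := congrArg (fun τ => τ (aevalF N (MvPolynomial.X (idxN N)))) h
      simpa only [tauInf_aevalF, phiInf_X] using this
    have h2 : ∀ z : ℍ, jFunD (idxN N).1 (γ⁻¹ • z) = jFunD (idxN N).1 (γ'⁻¹ • z) := by
      intro z
      have hg := hasQL_genInf N γ' (idxN N)
      rw [← h1] at hg
      exact HasQL.unique_fun (natCast_pos_real N) (hasQL_genInf N γ (idxN N)) hg z
    have h3 := mem_Gamma0_of_jFunD_smul_eq (idxN N).1 (γ⁻¹ * γ') (fun z => by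
      have := h2 (γ' • z)
      rw [inv_smul_smul, ← mul_smul] at this
      exact this)
    exact h3
  · intro h
    apply ringHom_ext N
    intro P
    rw [tauInf_aevalF, tauInf_aevalF]
    refine HasQL.unique (natCast_pos_real N) (hasQL_phiInf σ N γ P) ?_
    refine (hasQL_phiInf σ N γ' P).congr (fun z => ?_)
    have hfun : (fun d : DivIdx N => jFunD d.1 (γ'⁻¹ • z))
        = (fun d : DivIdx N => jFunD d.1 (γ⁻¹ • z)) := by
      funext d
      -- `γ⁻¹ z = (γ⁻¹ γ') (γ'⁻¹ z)`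
      have e : γ⁻¹ • z = (γ⁻¹ * γ') • (γ'⁻¹ • z) := by
        rw [← mul_smul, mul_assoc, mul_inv_cancel, mul_one]
      rw [e, jFunD_smul_of_mem_Gamma0 d.1 _ (mem_Gamma0_of_dvd N d.2 h)]
    show MvPolynomial.eval₂ σ (fun d : DivIdx N => jFunD d.1 (γ'⁻¹ • z)) P
      = MvPolynomial.eval₂ σ (fun d : DivIdx N => jFunD d.1 (γ⁻¹ • z)) P
    rw [hfun]

end Fermat.Agent.Lib.ModC
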