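import Mathlib
import Fermat.Agent.Lib.ModC.Inf
import Fermat.Agent.Lib.ModJ.Rot

/-!
# Item 68 (S24), block (C), part C-Inf: action of `T` on the embeddings at `∞`, widths

`tauInf (T^n γ) f = rot_{ζ^{-n}} (tauInf γ f)` and the width divisibility.
-/

set_option autoImplicit false
set_option linter.unusedSectionVars false

noncomputable section

open UpperHalfPlane Function Complex CongruenceSubgroup
open scoped Manifold MatrixGroups

namespace Fermat.Agent.Lib.ModC

open Fermat.Agent.Lib.ModJ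

variable {K : Type*} [Field K] [Algebra ℚ K] (σ : K →+* ℂ) (N : ℕ) [NeZero N]

/-- the rotation `t ↦ ζ_N^{-n} t` of Laurent series -/
def rotInf (n : ℤ) : LaurentSeries ℂ ≃+* LaurentSeries ℂ :=
  rotL (zetaN N ^ (-n)) (zpow_ne_zero (-n) (zetaN_ne_zero N))

theorem order_rotInf (n : ℤ) (L : LaurentSeries ℂ) : (rotInf N n L).order = L.order :=
  order_rotL _ _ L

theorem evalAn_T_zpow_mul (n : ℤ) (γ : SL(2, ℤ)) (P : MvPolynomial (DivIdx N) K) (z : ℍ) :
    evalAn σ N (ModularGroup.T ^ n * γ) P z = evalAn σ N γ P (shiftH (-n) z) := by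
  unfold evalAn
  have e : (ModularGroup.T ^ n * γ)⁻¹ • z = γ⁻¹ • shiftH (-n) z := by
    rw [mul_inv_rev, mul_smul, ← zpow_neg, T_zpow_smul_eq_shiftH]
  rw [e]

theorem phiInf_T_zpow_mul (n : ℤ) (γ : SL(2, ℤ)) (P : MvPolynomial (DivIdx N) K) :
    phiInf σ N (ModularGroup.T ^ n * γ) P = rotInf N n (phiInf σ N γ P) := by
  have hN : 0 < N := Nat.pos_of_ne_zero (NeZero.ne N)
  refine HasQL.unique (natCast_pos_real N) (hasQL_phiInf σ N _ P) ?_
  have h1 := HasQL.shift hN (hasQL_phiInf σ N γ P) (-n)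
  exact h1.congr (fun z => (evalAn_T_zpow_mul σ N n γ P z).symm)

/-- **C-Inf item 3.** -/
theorem tauInf_T_zpow_mul (n : ℤ) (γ : SL(2, ℤ))
    (f : ↥(ModularCurve.laurentBaseChange K (ModularCurve.modularFunctionFieldFull N))) :
    tauInf σ N (ModularGroup.T ^ n * γ) f = rotInf N n (tauInf σ N γ f) := by
  have h : tauInf σ N (ModularGroup.T ^ n * γ)
      = ((rotInf N n : LaurentSeries ℂ ≃+* LaurentSeries ℂ) : LaurentSeries ℂ →+* LaurentSeries ℂ).comp
          (tauInf σ N γ) := by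
    apply ringHom_ext N
    intro P
    rw [RingHom.comp_apply, tauInf_aevalF, tauInf_aevalF, phiInf_T_zpow_mul]
    rfl
  rw [h]
  rfl

theorem tauInf_T_mul (γ : SL(2, ℤ))
    (f : ↥(ModularCurve.laurentBaseChange K (ModularCurve.modularFunctionFieldFull N))) :
    tauInf σ N (ModularGroup.T * γ) f = rotInf N 1 (tauInf σ N γ f) := by
  have := tauInf_T_zpow_mul σ N 1 γ f
  rwa [zpow_one] at this

theorem order_tauInf_T_zpow_mul (n : ℤ) (γ : SL(2, ℤ))
    (f : ↥(ModularCurve.laurentBaseChange K (ModularCurve.modularFunctionFieldFull N))) :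
    (tauInf σ N (ModularGroup.T ^ n * γ) f).order = (tauInf σ N γ f).order := by
  rw [tauInf_T_zpow_mul, order_rotInf]

/-- **C-Inf item 4 (width divisibility).** -/
theorem width_dvd (γ : SL(2, ℤ)) (h : ℤ) (hγ : γ⁻¹ * ModularGroup.T ^ h * γ ∈ Gamma0 N)
    {f : ↥(ModularCurve.laurentBaseChange K (ModularCurve.modularFunctionFieldFull N))}
    (hf : f ≠ 0) : (N : ℤ) ∣ h * (tauInf σ N γ f).order := by
  have hN : 0 < N := Nat.pos_of_ne_zero (NeZero.ne N)
  have h1 : tauInf σ N γ = tauInf σ N (ModularGroup.T ^ h * γ) := by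
    rw [tauInf_eq_iff, ← mul_assoc]
    exact hγ
  have h2 : rotInf N h (tauInf σ N γ f) = tauInf σ N γ f := by
    rw [← tauInf_T_zpow_mul, ← h1]
  have h3 : tauInf σ N γ f ≠ 0 := (map_ne_zero (tauInf σ N γ)).mpr hf
  have h4 := dvd_order_of_rotL_eq hN h3 (-h) h2
  rwa [neg_mul, dvd_neg] at h4

end Fermat.Agent.Lib.ModC
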