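import Mathlib
import Fermat.Agent.Lib.ModC.InfRot
import Fermat.Agent.Lib.ModC.Model
import Fermat.Agent.Lib.ModJ.QExpKernel
import Fermat.Agent.S24.Top

/-!
# Item 68 (S24), block (C): the model at the cusp `∞`

`Model ℚ̄ F N (j⁻¹) N T` from the embeddings `tauInf` into `ℂ((t))`.
-/

set_option autoImplicit false

open AlgebraicCurve IntermediateField ModularCurve
open scoped MatrixGroups

namespace Fermat.Agent.Lib.ModC

open Fermat.Agent.Lib.FF CongruenceSubgroup Fermat.Agent.Lib.ModJ Fermat.Agent.S24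

theorem isOrdFun_order : IsOrdFun (fun L : LaurentSeries ℂ => L.order) where
  mul _ _ hf hg := HahnSeries.order_mul hf hg
  add _ _ _ _ hfg := HahnSeries.min_order_le_order_add hfg

theorem order_qExpand_jqC (N : ℕ) [NeZero N] :
    (ModularCurve.qExpand ℂ N jqC).order = -(N : ℤ) := by
  have hcoeff : (ModularCurve.qExpand ℂ N jqC).coeff (-(N : ℤ)) = 1 := by
    have h := ModularCurve.qExpand_coeff_mul (R := ℂ) N jqC (-1)
    rw [mul_neg, mul_one] at h
    rw [h, jqC, ModularCurve.coeffEmb_coeff, ModularCurve.coeff_jq_neg_one, map_one]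
  have hne : ModularCurve.qExpand ℂ N jqC ≠ 0 := by
    intro h
    rw [h] at hcoeff
    simp at hcoeff
  apply le_antisymm
  · exact HahnSeries.order_le_of_coeff_ne_zero (by rw [hcoeff]; exact one_ne_zero)
  · by_contra hlt
    rw [not_le] at hlt
    have h1 : (ModularCurve.qExpand ℂ N jqC).coeff (ModularCurve.qExpand ℂ N jqC).order ≠ 0 :=
      fun h => hne (HahnSeries.coeff_order_eq_zero.mp h)
    apply h1
    by_cases hdvd : (N : ℤ) ∣ (ModularCurve.qExpand ℂ N jqC).order
    · obtain ⟨k, hk⟩ := hdvd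
      rw [hk, ModularCurve.qExpand_coeff_mul, jqC, ModularCurve.coeffEmb_coeff]
      have hN : (0 : ℤ) < N := by exact_mod_cast Nat.pos_of_ne_zero (NeZero.ne N)
      have hk1 : k < -1 := by
        rw [hk] at hlt
        by_contra hk2
        rw [not_lt] at hk2
        nlinarith
      rw [ModularCurve.coeff_jq_of_lt hk1, map_zero]
    · exact ModularCurve.qExpand_coeff_of_not_dvd N jqC hdvd

theorem tauInf_jBar (N : ℕ) [NeZero N] (γ : SL(2, ℤ)) :
    tauInf iotaQbar N γ (jBar N) = ModularCurve.qExpand ℂ N jqC := by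
  have := tauInf_j iotaQbar N γ (jBar N).2
  exact this

theorem tauInf_jBar_ne_zero (N : ℕ) [NeZero N] (γ : SL(2, ℤ)) :
    tauInf iotaQbar N γ (jBar N) ≠ 0 := by
  rw [tauInf_jBar]
  intro h
  have := order_qExpand_jqC N
  rw [h, HahnSeries.order_zero] at this
  have hN : (N : ℤ) ≠ 0 := by exact_mod_cast NeZero.ne N
  omega

theorem order_tauInf_jBar_inv (N : ℕ) [NeZero N] (γ : SL(2, ℤ)) :
    (tauInf iotaQbar N γ (jBar N)⁻¹).order = (N : ℤ) := by
  rw [map_inv₀]
  have h : (tauInf iotaQbar N γ (jBar N))⁻¹.order = -(tauInf iotaQbar N γ (jBar N)).order :=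
    isOrdFun_order.inv (tauInf_jBar_ne_zero N γ)
  rw [h, tauInf_jBar, order_qExpand_jqC, neg_neg]

/-- **the model at `∞`** -/
noncomputable def infModel (N : ℕ) [NeZero N] :
    Model (AlgebraicClosure ℚ) (modularFunctionFieldBar N) N (jBar N)⁻¹ N ModularGroup.T where
  Ω := LaurentSeries ℂ
  w := fun L => L.order
  isOrdFun := isOrdFun_order
  τ := tauInf iotaQbar N
  τ_eq_iff := tauInf_eq_iff iotaQbar N
  τ_const γ c := by
    rw [tauInf_algebraMap, tauInf_algebraMap]
  τ_y γ := by
    rw [map_inv₀, map_inv₀, tauInf_jBar, tauInf_jBar]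
  w_const γ c _ := order_tauInf_algebraMap iotaQbar N γ c
  w_y := order_tauInf_jBar_inv N 1
  w_stab γ f := by
    have := order_tauInf_T_zpow_mul iotaQbar N 1 γ f
    rwa [zpow_one] at this
  w_dvd γ f h hf _ hγ := by
    have := width_dvd iotaQbar N γ (h : ℤ) (by rwa [zpow_natCast]) hf
    exact this

end Fermat.Agent.Lib.ModC
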